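/-
ES (D, p-adic part) P3: complex conjugation in `G_ℚ` inverts the roots of unity.
-/
import Fermat.Agent.ES.D.Cyclo
import Fermat.Prelude.Def_GaloisRep_ComplexConjugation

set_option autoImplicit false

namespace Fermat.Agent.ES.D

theorem complexConjugation_rootOfUnity (ζ : Qb) (m : ℕ) (hm : m ≠ 0) (hζ : ζ ^ m = 1) :
    complexConjugation ζ = ζ⁻¹ := by
  apply complexEmbedding.toRingHom.injective
  change complexEmbedding (complexConjugation ζ) = complexEmbedding ζ⁻¹
  rw [complexEmbedding_complexConjugation, map_inv₀]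
  have h1 : (complexEmbedding ζ) ^ m = 1 := by rw [← map_pow, hζ, map_one]
  have h2 : ‖complexEmbedding ζ‖ = 1 := Complex.norm_eq_one_of_pow_eq_one h1 hm
  rw [Complex.inv_def, Complex.normSq_eq_norm_sq, h2]
  simp

/-- There is an involution `c ∈ G_ℚ` (a complex conjugation) inverting all roots of unity. -/
theorem exists_complexConj :
    ∃ c : GQ, c * c = 1 ∧ ∀ ζ : Qb, ∀ m : ℕ, m ≠ 0 → ζ ^ m = 1 → c ζ = ζ⁻¹ :=
  ⟨complexConjugation, complexConjugation_mul_self, complexConjugation_rootOfUnity⟩

end Fermat.Agent.ES.D
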