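/-
ES (D, p-adic part) P2: the two-dimensionality lemma over an ARBITRARY field of characteristic
`≠ 2`, using an involution `c` with `d(c) = -1` (complex conjugation) instead of algebraic
closedness (compare `twoDim` in Quadratic.lean).

COMPLETE PROOF.  Choose `t : G → k` from `hquad` (for the second part use `Function.update t g t'` as in
the proof of `twoDim`).  Write `C = ρ c`.  `C * C = 1` (from `hc`), and the relation for `c` reads
`1 - t c • C - 1 = 0`, so `t c = 0` (`C` is invertible, `U` nontrivial).
`quad_rel_base ρ d t ht g c` :  `ρ g * C + C * ρ g = t g • C + t (g * c) • 1`     (†).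
(1) `dim ≤ 2`.  For `u` with `C u = u`: evaluating (†) at `u`: `(1 + C) (ρ g u) = (t g + t (g*c)) • u`.
If `u ≠ 0`, `span {ρ g u | g}` is stable and nonzero, hence `⊤` by `hirr`; so `range (1 + C) ≤ span {u}`.
For `u` with `C u = -u`: `(C - 1) (ρ g u) = (t (g*c) - t g) • u`, so `range (C - 1) ≤ span {u}`.
Every `x` is `2⁻¹ • ((1 + C) x - (C - 1) x)`, `C ((1 + C) x) = (1 + C) x`, `C ((C - 1) x) = - (C - 1) x`.
So `U = range (1 + C) + range (C - 1)`, each of dimension `≤ 1` (if `range (1+C) ≠ 0` pick `u ≠ 0` in it).
(2) `dim = 2`, `g : G`.  `C` is not a scalar: if `C = a • 1` then `a² = 1`, and `range (1 + C)` or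
`range (C - 1)` is `0` so `dim ≤ 1` by (1).
 (a) a non-scalar endomorphism `f` of a 2-dimensional space killed by a monic quadratic `X² - tX + e` has
   that quadratic as characteristic polynomial: subtract Cayley-Hamilton (`LinearMap.aeval_self_charpoly`,
   or matrices + `Matrix.charpoly_fin_two`, `Matrix.aeval_self_charpoly`):
   `(t - tr f) • f = (e - det f) • 1`, so `t = tr f` (else `f` scalar), then `e = det f`.
 (b) if `ρ g` is not a scalar, (a) applies.  If `ρ g = a • 1`: `ρ (g * c) = a • C` is not a scalar
   (`a ≠ 0`), so by (a) `det (a • C) = d (g * c) = - d g`; also (a) for `C` itself: `det C = d c = -1`,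
   hence `a² = d g`; with `a² - t g a + d g = 0` we get `t g = 2 a`; `charpoly (a • 1) = X² - 2aX + a²`.
-/
import Fermat.Agent.ES.D.Quadratic

set_option autoImplicit false

namespace Fermat.Agent.ES.D

open Polynomial

namespace ConjDimAux

/-- (a) a non-scalar endomorphism of a plane killed by a monic quadratic has that quadratic as
characteristic polynomial. -/
theorem charpoly_of_not_scalar {k U : Type*} [Field k] [AddCommGroup U] [Module k U]
    [FiniteDimensional k U] (h2 : Module.finrank k U = 2) (f : Module.End k U)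
    (hf : ∀ a : k, f ≠ a • (1 : Module.End k U)) (t e : k)
    (h : f * f - t • f + e • (1 : Module.End k U) = 0) :
    f.charpoly = X ^ 2 - C t * X + C e := by
  classical
  let b := Module.finBasisOfFinrankEq k U h2
  let Φ := LinearMap.toMatrixAlgEquiv b
  set M := Φ f with hM
  have hq := congrArg Φ h
  simp only [map_add, map_sub, map_mul, map_smul, map_one, map_zero, ← hM] at hq
  have q00 := congrFun (congrFun hq 0) 0
  have q01 := congrFun (congrFun hq 0) 1
  have q10 := congrFun (congrFun hq 1) 0
  have q11 := congrFun (congrFun hq 1) 1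
  simp [Matrix.mul_apply, Fin.sum_univ_two] at q00 q01 q10 q11
  have hcp : f.charpoly = M.charpoly := (LinearMap.charpoly_toMatrix f b).symm
  rw [hcp, Matrix.charpoly_fin_two, Matrix.trace_fin_two, Matrix.det_fin_two]
  have ht' : M 0 0 + M 1 1 = t := by
    by_contra hne
    have hne' : M 0 0 + M 1 1 - t ≠ 0 := sub_ne_zero.mpr hne
    have h01 : M 0 1 = 0 := by
      have : M 0 1 * (M 0 0 + M 1 1 - t) = 0 := by linear_combination q01
      exact (mul_eq_zero.mp this).resolve_right hne'
    have h10 : M 1 0 = 0 := by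
      have : M 1 0 * (M 0 0 + M 1 1 - t) = 0 := by linear_combination q10
      exact (mul_eq_zero.mp this).resolve_right hne'
    have h11 : M 1 1 = M 0 0 := by
      have : (M 1 1 - M 0 0) * (M 0 0 + M 1 1 - t) = 0 := by linear_combination q11 - q00
      exact sub_eq_zero.mp ((mul_eq_zero.mp this).resolve_right hne')
    apply hf (M 0 0)
    apply Φ.injective
    rw [map_smul, map_one, ← hM]
    ext i j
    fin_cases i <;> fin_cases j <;> simp [h01, h10, h11]
  have hd' : M 0 0 * M 1 1 - M 0 1 * M 1 0 = e := by
    linear_combination (-1 : k) * q00 + (M 0 0) * ht'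
  rw [ht', hd']

theorem charpoly_scalar {k U : Type*} [Field k] [AddCommGroup U] [Module k U]
    [FiniteDimensional k U] (h2 : Module.finrank k U = 2) (a : k) :
    (a • (1 : Module.End k U)).charpoly = X ^ 2 - C (2 * a) * X + C (a * a) := by
  classical
  let b := Module.finBasisOfFinrankEq k U h2
  let Φ := LinearMap.toMatrixAlgEquiv b
  have hcp : (a • (1 : Module.End k U)).charpoly = (Φ (a • (1 : Module.End k U))).charpoly :=
    (LinearMap.charpoly_toMatrix _ b).symm
  rw [hcp, map_smul, map_one, Matrix.charpoly_fin_two, Matrix.trace_fin_two, Matrix.det_fin_two]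
  simp [two_mul]

section
variable {k U G : Type*} [Field k] [AddCommGroup U] [Module k U]
  [Group G] (ρ : G →* Module.End k U) (d : G →* kˣ) (t : G → k)

/-- the relation (†). -/
theorem dagger (ht : ∀ g, ρ g * ρ g - t g • ρ g + (d g : k) • (1 : Module.End k U) = 0)
    (c : G) (htc : t c = 0) (g : G) :
    ρ g * ρ c + ρ c * ρ g = t g • ρ c + t (g * c) • (1 : Module.End k U) := by
  rw [quad_rel_base ρ d t ht g c, htc]
  simp

theorem range_le_span
    (hirr : ∀ W : Submodule k U, (∀ g, ∀ x ∈ W, ρ g x ∈ W) → W = ⊥ ∨ W = ⊤)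
    (ht : ∀ g, ρ g * ρ g - t g • ρ g + (d g : k) • (1 : Module.End k U) = 0)
    (c : G) (htc : t c = 0) (s : k) (u : U) (hu : u ≠ 0) (hcu : ρ c u = s • u) :
    LinearMap.range (ρ c + s • (1 : Module.End k U)) ≤ Submodule.span k {u} := by
  let S : Submodule k U := Submodule.span k (Set.range fun g => ρ g u)
  have hS : S = ⊤ := by
    refine (hirr S ?_).resolve_left ?_
    · intro g x hx
      induction hx using Submodule.span_induction with
      | mem x hx =>
        obtain ⟨h, rfl⟩ := hx
        apply Submodule.subset_span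
        exact ⟨g * h, by simp [map_mul]⟩
      | zero => simp
      | add x y _ _ hx hy => rw [map_add]; exact S.add_mem hx hy
      | smul a x _ hx => rw [map_smul]; exact S.smul_mem a hx
    · intro hbot
      have : u ∈ S := Submodule.subset_span ⟨1, by simp⟩
      rw [hbot, Submodule.mem_bot] at this
      exact hu this
  have hle : S ≤ (Submodule.span k {u}).comap (ρ c + s • (1 : Module.End k U)) := by
    rw [Submodule.span_le]
    rintro _ ⟨g, rfl⟩
    rw [SetLike.mem_coe, Submodule.mem_comap, Submodule.mem_span_singleton]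
    refine ⟨t g * s + t (g * c), ?_⟩
    have h := congrArg (fun f : Module.End k U => f u) (dagger ρ d t ht c htc g)
    simp only [LinearMap.add_apply, Module.End.mul_apply, LinearMap.smul_apply,
      Module.End.one_apply, hcu, map_smul] at h ⊢
    rw [add_comm ((ρ c) ((ρ g) u)), h, add_smul, mul_smul]
  rintro _ ⟨x, rfl⟩
  have : x ∈ S := by rw [hS]; trivial
  exact hle this

theorem finrank_range_le_one
    (hirr : ∀ W : Submodule k U, (∀ g, ∀ x ∈ W, ρ g x ∈ W) → W = ⊥ ∨ W = ⊤)
    (ht : ∀ g, ρ g * ρ g - t g • ρ g + (d g : k) • (1 : Module.End k U) = 0)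
    (c : G) (htc : t c = 0) (hcc : ρ c * ρ c = 1) (s : k) (hs : s * s = 1) :
    Module.finrank k (LinearMap.range (ρ c + s • (1 : Module.End k U))) ≤ 1 := by
  by_cases hbot : LinearMap.range (ρ c + s • (1 : Module.End k U)) = ⊥
  · rw [hbot]; simp
  · obtain ⟨u, hu, hu0⟩ := Submodule.exists_mem_ne_zero_of_ne_bot hbot
    obtain ⟨x, rfl⟩ := hu
    have hcu : ρ c ((ρ c + s • (1 : Module.End k U)) x)
        = s • ((ρ c + s • (1 : Module.End k U)) x) := by
      have h1 : ρ c (ρ c x) = x := by
        have := congrArg (fun f : Module.End k U => f x) hcc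
        simpa using this
      simp only [LinearMap.add_apply, LinearMap.smul_apply, Module.End.one_apply, map_add,
        map_smul, h1, smul_add, smul_smul, hs, one_smul]
      rw [add_comm]
    refine (Submodule.finrank_mono (range_le_span ρ d t hirr ht c htc s _ hu0 hcu)).trans ?_
    exact (finrank_span_le_card _).trans (by simp)

end

end ConjDimAux

open ConjDimAux

theorem twoDim_conj {k U G : Type*} [Field k] [AddCommGroup U] [Module k U]
    [FiniteDimensional k U] [Nontrivial U] [Group G] (h2 : (2 : k) ≠ 0)
    (ρ : G →* Module.End k U) (d : G →* kˣ)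
    (hirr : ∀ W : Submodule k U, (∀ g, ∀ x ∈ W, ρ g x ∈ W) → W = ⊥ ∨ W = ⊤)
    (hquad : ∀ g, ∃ t : k, ρ g * ρ g - t • ρ g + (d g : k) • (1 : Module.End k U) = 0)
    (c : G) (hc : c * c = 1) (hdc : (d c : k) = -1) :
    Module.finrank k U ≤ 2 ∧ (Module.finrank k U = 2 → ∀ (g : G) (t : k),
      ρ g * ρ g - t • ρ g + (d g : k) • (1 : Module.End k U) = 0 →
        (ρ g).charpoly = X ^ 2 - C t * X + C (d g : k)) := by
  classical
  choose t ht using hquad
  have hcc : ρ c * ρ c = 1 := by rw [← map_mul, hc, map_one]
  have htc : t c = 0 := by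
    have h := ht c
    rw [hcc, hdc] at h
    have h1 : t c • ρ c = 0 := by
      have : (1 : Module.End k U) - t c • ρ c + (-1 : k) • (1 : Module.End k U) = - (t c • ρ c) := by
        rw [neg_smul, one_smul]; abel
      rw [this, neg_eq_zero] at h
      exact h
    by_contra hne
    have h3 : ρ c = 0 := (smul_eq_zero.mp h1).resolve_left hne
    rw [h3, mul_zero] at hcc
    exact zero_ne_one hcc
  have hp := finrank_range_le_one ρ d t hirr ht c htc hcc 1 (by ring)
  have hm := finrank_range_le_one ρ d t hirr ht c htc hcc (-1) (by ring)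
  have htop : LinearMap.range (ρ c + (1 : k) • (1 : Module.End k U)) ⊔
      LinearMap.range (ρ c + (-1 : k) • (1 : Module.End k U)) = ⊤ := by
    rw [eq_top_iff]
    intro x _
    have hx : x = (ρ c + (1 : k) • (1 : Module.End k U)) ((2 : k)⁻¹ • x)
        + (ρ c + (-1 : k) • (1 : Module.End k U)) (-((2 : k)⁻¹ • x)) := by
      have : (2 : k)⁻¹ • x + (2 : k)⁻¹ • x = x := by
        rw [← add_smul, ← two_mul, mul_inv_cancel₀ h2, one_smul]
      simp only [LinearMap.add_apply, LinearMap.neg_apply, Module.End.one_apply, map_neg,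
        one_smul, neg_smul]
      nth_rewrite 1 [← this]
      abel
    rw [hx]
    exact Submodule.add_mem_sup ⟨_, rfl⟩ ⟨_, rfl⟩
  have hle : Module.finrank k U ≤
      Module.finrank k (LinearMap.range (ρ c + (1 : k) • (1 : Module.End k U))) +
      Module.finrank k (LinearMap.range (ρ c + (-1 : k) • (1 : Module.End k U))) := by
    rw [← finrank_top k U, ← htop]
    exact Submodule.finrank_add_le_finrank_add_finrank _ _
  refine ⟨by omega, fun hdim g t' ht' => ?_⟩
  have hone : ∀ a : k, a • (1 : Module.End k U) = 0 → a = 0 := fun a ha =>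
    (smul_eq_zero.mp ha).resolve_right one_ne_zero
  -- `ρ c` is not a scalar
  have hCns : ∀ a : k, ρ c ≠ a • (1 : Module.End k U) := by
    intro a ha
    have haa : a * a = 1 := by
      have h := hcc
      rw [ha, smul_mul_smul_comm, one_mul] at h
      have : (a * a - 1) • (1 : Module.End k U) = 0 := by rw [sub_smul, h, one_smul, sub_self]
      exact sub_eq_zero.mp (hone _ this)
    have h' : (a - 1) * (a + 1) = 0 := by linear_combination haa
    rcases mul_eq_zero.mp h' with h1 | h1
    · have : ρ c + (-1 : k) • (1 : Module.End k U) = 0 := by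
        rw [ha, ← add_smul, ← sub_eq_add_neg, h1, zero_smul]
      rw [this, LinearMap.range_zero, finrank_bot] at hle
      omega
    · have : ρ c + (1 : k) • (1 : Module.End k U) = 0 := by
        rw [ha, ← add_smul, h1, zero_smul]
      rw [this, LinearMap.range_zero, finrank_bot] at hle
      omega
  by_cases hs : ∃ a : k, ρ g = a • (1 : Module.End k U)
  · obtain ⟨a, ha⟩ := hs
    have ha0 : a ≠ 0 := by
      rintro rfl
      have h : ρ g * ρ g⁻¹ = 1 := by rw [← map_mul, mul_inv_cancel, map_one]
      rw [ha, zero_smul, zero_mul] at h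
      exact zero_ne_one h
    have hgc := ht (g * c)
    have hdgc : ((d (g * c) : kˣ) : k) = - (d g : k) := by
      rw [map_mul, Units.val_mul, hdc]; ring
    rw [map_mul, ha, hdgc, smul_mul_assoc, one_mul, smul_mul_smul_comm, hcc, smul_smul] at hgc
    have hrel : (t (g * c) * a) • ρ c = (a * a - (d g : k)) • (1 : Module.End k U) := by
      rw [neg_smul] at hgc
      rw [sub_smul, eq_comm, ← sub_eq_zero, ← hgc]
      abel
    have hz : t (g * c) * a = 0 := by
      by_contra hne
      apply hCns ((t (g * c) * a)⁻¹ * (a * a - (d g : k)))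
      rw [mul_smul, ← hrel, smul_smul, inv_mul_cancel₀ hne, one_smul]
    have hdg : (d g : k) = a * a := by
      rw [hz, zero_smul] at hrel
      exact (sub_eq_zero.mp (hone _ hrel.symm)).symm
    have ht2 : t' = 2 * a := by
      have h := ht'
      rw [ha, smul_mul_smul_comm, one_mul, smul_smul, ← sub_smul, ← add_smul] at h
      have h3 := hone _ h
      have : (t' - 2 * a) * a = 0 := by rw [hdg] at h3; linear_combination -h3
      exact sub_eq_zero.mp ((mul_eq_zero.mp this).resolve_right ha0)
    rw [ha, charpoly_scalar hdim a, ht2, hdg]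
  · exact charpoly_of_not_scalar hdim (ρ g) (fun a ha => hs ⟨a, ha⟩) t' (d g) ht'

end Fermat.Agent.ES.D
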