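/-
ES (D, p-adic part) P5: the abstract core.  From a matrix representation `R : G → GL_r(𝒪)` over a
DVR, a character `κ`, a nonzero stable subspace `W ⊆ K^r` on which every `R σ` satisfies a quadratic
relation `X² - t X + κ(σ)`, and an involution `c` with `κ(c) = -1`, we get a representation on a free
`𝒪`-module of rank two with the expected characteristic polynomials.

PROOF SKETCH.  `exists_minimal_stable` (Abstract.lean) gives `0 ≠ U ≤ W` stable and minimal;
`restrictRep_irreducible`; `twoDim_conj` (ConjDim.lean) with `d := Units.map (algebraMap 𝒪 K) ∘ κ`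
gives `finrank K U ≤ 2` and the characteristic polynomials if `= 2`.  `exists_lattice_rep`
(Lattice.lean) gives `(U₀, ρ₀)`.
* `finrank K U = 2`: take `(U₀, ρ₀)`; `charpoly (ρ₀ σ)` maps to `X² - tX + κ σ` under the injective
  `Polynomial.map (algebraMap 𝒪 K)` (`Polynomial.map_injective`, `IsFractionRing.injective`).
* `finrank K U = 1` (it is `≠ 0` as `U ≠ ⊥`): `ψ σ := LinearMap.det (ρ₀ σ) : G →* 𝒪`,
  `ρ₀ σ = ψ σ • 1` (rank one free module), `ψ' σ := κ σ * ψ σ⁻¹`, `V₀ := Fin 2 → 𝒪` with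
  `σ ↦ Matrix.toLin' (Matrix.diagonal ![ψ σ, ψ' σ])` (copy `diagRep`, `diagRep_charpoly`,
  `diagRep_eq_one` of Abstract.lean, which are stated for fields, and the end of the proof of
  `exists_rep_core` there: `ψ² - tψ + κ = 0` gives `ψ + ψ' = t`, `ψ ψ' = κ`).
  Congruences: `ψ σ - 1 ∈ 𝔪^n` from the last clause of `exists_lattice_rep` applied to a basis vector;
  `ψ σ⁻¹ - 1 = - ψ σ⁻¹ (ψ σ - 1)`.
-/
import Fermat.Agent.ES.D.Adic.ConjDim
import Fermat.Agent.ES.D.Adic.Lattice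

set_option autoImplicit false

namespace Fermat.Agent.ES.D

open Polynomial

namespace CoreAux

section ring

variable {A : Type*} [CommRing A]

/-- an endomorphism of a free module of rank one is the scalar given by its determinant. -/
theorem eq_det_smul_of_free {M : Type*} [AddCommGroup M] [Module A M] [Module.Free A M]
    [Module.Finite A M] [Nontrivial A] (h1 : Module.finrank A M = 1) (f : Module.End A M) :
    f = LinearMap.det f • (1 : Module.End A M) := by
  let b : Module.Basis (Fin 1) A M := Module.finBasisOfFinrankEq A M h1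
  have hf : f = (b.repr (f (b 0)) 0) • (1 : Module.End A M) := by
    apply b.ext
    intro i
    have hi : i = 0 := Subsingleton.elim _ _
    subst hi
    rw [LinearMap.smul_apply, Module.End.one_apply]
    conv_lhs => rw [← b.sum_repr (f (b 0))]
    simp
  have hdet : LinearMap.det f = b.repr (f (b 0)) 0 := by
    conv_lhs => rw [hf]
    rw [LinearMap.det_smul, h1, pow_one, map_one, mul_one]
  rw [hdet]
  exact hf

theorem apply_mem_of_mem_smul_top {M : Type*} [AddCommGroup M] [Module A M] (I : Ideal A)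
    (f : M →ₗ[A] A) {x : M} (hx : x ∈ I • (⊤ : Submodule A M)) : f x ∈ I := by
  induction hx using Submodule.smul_induction_on' with
  | smul r hr n _ =>
    rw [map_smul, smul_eq_mul]
    exact I.mul_mem_right _ hr
  | add x _ y _ hx hy =>
    rw [map_add]
    exact I.add_mem hx hy

theorem mem_smul_top_of_forall {n : ℕ} (I : Ideal A) {x : Fin n → A} (hx : ∀ i, x i ∈ I) :
    x ∈ I • (⊤ : Submodule A (Fin n → A)) := by
  have h : x = ∑ i, x i • (Pi.single i (1 : A) : Fin n → A) := by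
    funext j
    simp [Finset.sum_apply, Pi.single_apply]
  rw [h]
  exact Submodule.sum_mem _ fun i _ => Submodule.smul_mem_smul (hx i) Submodule.mem_top

variable {G : Type*} [Group G]

/-- a rank two representation from two characters. -/
noncomputable def diagRepO (ψ ψ' : G →* A) : G →* Module.End A (Fin 2 → A) where
  toFun σ := Matrix.toLin' (Matrix.diagonal ![ψ σ, ψ' σ])
  map_one' := by
    have : (![ψ 1, ψ' 1] : Fin 2 → A) = fun _ => 1 := by
      funext i; fin_cases i <;> simp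
    rw [this, Matrix.diagonal_one, Matrix.toLin'_one]; rfl
  map_mul' σ τ := by
    have : (![ψ (σ * τ), ψ' (σ * τ)] : Fin 2 → A)
        = fun i => (![ψ σ, ψ' σ] : Fin 2 → A) i * (![ψ τ, ψ' τ] : Fin 2 → A) i := by
      funext i; fin_cases i <;> simp
    rw [this, ← Matrix.diagonal_mul_diagonal, Matrix.toLin'_mul]; rfl

theorem diagRepO_charpoly [Nontrivial A] (ψ ψ' : G →* A) (σ : G) :
    (diagRepO ψ ψ' σ).charpoly = X ^ 2 - C (ψ σ + ψ' σ) * X + C (ψ σ * ψ' σ) := by
  have h1 : diagRepO ψ ψ' σ = Matrix.toLin' (Matrix.diagonal ![ψ σ, ψ' σ]) := rfl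
  rw [h1, ← LinearMap.charpoly_toMatrix _ (Pi.basisFun A (Fin 2)),
    LinearMap.toMatrix_eq_toMatrix', LinearMap.toMatrix'_toLin', Matrix.charpoly_fin_two,
    Matrix.trace_fin_two, Matrix.det_fin_two]
  simp

theorem diagRepO_eq_one (ψ ψ' : G →* A) {σ : G} (h : ψ σ = 1) (h' : ψ' σ = 1) :
    diagRepO ψ ψ' σ = 1 := by
  have h1 : diagRepO ψ ψ' σ = Matrix.toLin' (Matrix.diagonal ![ψ σ, ψ' σ]) := rfl
  have : (![ψ σ, ψ' σ] : Fin 2 → A) = fun _ => 1 := by
    funext i; fin_cases i <;> simp [h, h']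
  rw [h1, this, Matrix.diagonal_one, Matrix.toLin'_one]; rfl

theorem diagRepO_apply (ψ ψ' : G →* A) (σ : G) (v : Fin 2 → A) (i : Fin 2) :
    diagRepO ψ ψ' σ v i = (![ψ σ, ψ' σ] : Fin 2 → A) i * v i := by
  have h1 : diagRepO ψ ψ' σ = Matrix.toLin' (Matrix.diagonal ![ψ σ, ψ' σ]) := rfl
  rw [h1, Matrix.toLin'_apply, Matrix.mulVec_diagonal]

end ring

end CoreAux

open CoreAux

theorem exists_adic_rep_core {𝒪 : Type} [CommRing 𝒪] [IsDomain 𝒪] [IsDiscreteValuationRing 𝒪]
    (K : Type) [Field K] [Algebra 𝒪 K] [IsFractionRing 𝒪 K] (h2 : (2 : K) ≠ 0)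
    {r : ℕ} {G : Type} [Group G]
    (R : G →* Matrix (Fin r) (Fin r) 𝒪) (κ : G →* 𝒪ˣ)
    (W : Submodule K (Fin r → K)) (hW0 : W ≠ ⊥) (hW : ∀ σ, ∀ x ∈ W, actK K R σ x ∈ W)
    (hquad : ∀ σ, ∃ t : K, ∀ x ∈ W,
      actK K R σ (actK K R σ x) - t • actK K R σ x + algebraMap 𝒪 K (κ σ : 𝒪) • x = 0)
    (c : G) (hc : c * c = 1) (hκc : (κ c : 𝒪) = -1) :
    ∃ (V₀ : Type) (_ : AddCommGroup V₀) (_ : Module 𝒪 V₀) (_ : Module.Free 𝒪 V₀)
      (_ : Module.Finite 𝒪 V₀) (ρ₀ : G →* Module.End 𝒪 V₀),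
      Module.finrank 𝒪 V₀ = 2 ∧
      (∀ (σ : G) (t : 𝒪), (∀ x ∈ W, actK K R σ (actK K R σ x) - algebraMap 𝒪 K t • actK K R σ x
          + algebraMap 𝒪 K (κ σ : 𝒪) • x = 0) →
        LinearMap.charpoly (ρ₀ σ) = X ^ 2 - C t * X + C (κ σ : 𝒪)) ∧
      (∀ σ, R σ = 1 → κ σ = 1 → ρ₀ σ = 1) ∧
      (∀ (σ : G) (n : ℕ), (∀ i j, (R σ - 1) i j ∈ IsLocalRing.maximalIdeal 𝒪 ^ n) →
        (κ σ : 𝒪) - 1 ∈ IsLocalRing.maximalIdeal 𝒪 ^ n →
        ∀ v : V₀, ρ₀ σ v - v ∈ (IsLocalRing.maximalIdeal 𝒪 ^ n) • (⊤ : Submodule 𝒪 V₀)) := by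
  classical
  obtain ⟨U, hUW, hU0, hUst, hUmin⟩ := exists_minimal_stable (fun σ => actK K R σ) W hW0 hW
  let rK : G →* Module.End K U := restrictRep (actK K R) U hUst
  have hnt : Nontrivial U := (Submodule.nontrivial_iff_ne_bot).mpr hU0
  have hirr : ∀ W' : Submodule K U, (∀ g, ∀ x ∈ W', rK g x ∈ W') → W' = ⊥ ∨ W' = ⊤ :=
    fun W' hW' => restrictRep_irreducible (actK K R) U hUst hUmin W' hW'
  let d : G →* Kˣ := (Units.map (algebraMap 𝒪 K).toMonoidHom).comp κ
  have hd : ∀ σ, ((d σ : Kˣ) : K) = algebraMap 𝒪 K (κ σ : 𝒪) := fun σ => rfl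
  have hinj : Function.Injective (algebraMap 𝒪 K) := IsFractionRing.injective 𝒪 K
  -- relations on `W` give relations on `U`
  have hrel : ∀ (σ : G) (t : K), (∀ x ∈ W, actK K R σ (actK K R σ x) - t • actK K R σ x
      + algebraMap 𝒪 K (κ σ : 𝒪) • x = 0) →
      rK σ * rK σ - t • rK σ + ((d σ : Kˣ) : K) • (1 : Module.End K U) = 0 := by
    intro σ t ht
    ext x
    exact congrFun (ht x (hUW x.2)) _
  have hquadU : ∀ g, ∃ t : K,
      rK g * rK g - t • rK g + ((d g : Kˣ) : K) • (1 : Module.End K U) = 0 := by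
    intro g
    obtain ⟨t, ht⟩ := hquad g
    exact ⟨t, hrel g t ht⟩
  have hdc : ((d c : Kˣ) : K) = -1 := by
    rw [hd, hκc, map_neg, map_one]
  obtain ⟨hle, h2dim⟩ := twoDim_conj h2 rK d hirr hquadU c hc hdc
  obtain ⟨U₀, i1, i2, i3, i4, ρ₀, hrank, hchar, htriv, hcong⟩ := exists_lattice_rep R U hUst
  have hpos : 0 < Module.finrank K U := Module.finrank_pos
  rcases (by omega : Module.finrank K U = 2 ∨ Module.finrank K U = 1) with hU2 | hU1
  · refine ⟨U₀, i1, i2, i3, i4, ρ₀, hrank.trans hU2, ?_, fun σ h _ => htriv σ h,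
      fun σ n h _ => hcong σ n h⟩
    intro σ t ht
    have h3 := h2dim hU2 σ (algebraMap 𝒪 K t) (hrel σ _ ht)
    apply Polynomial.map_injective (algebraMap 𝒪 K) hinj
    rw [hchar σ]
    refine h3.trans ?_
    rw [hd]
    simp
  · -- the one-dimensional case
    have hU₀1 : Module.finrank 𝒪 U₀ = 1 := hrank.trans hU1
    let ψ : G →* 𝒪 := LinearMap.det.comp ρ₀
    have hψ : ∀ σ, ρ₀ σ = ψ σ • (1 : Module.End 𝒪 U₀) := fun σ => eq_det_smul_of_free hU₀1 _
    have hψK : ∀ σ, rK σ = algebraMap 𝒪 K (ψ σ) • (1 : Module.End K U) := by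
      intro σ
      have e1 : LinearMap.det (rK σ) = algebraMap 𝒪 K (ψ σ) := by
        show _ = algebraMap 𝒪 K (LinearMap.det (ρ₀ σ))
        rw [LinearMap.det_eq_sign_charpoly_coeff, LinearMap.det_eq_sign_charpoly_coeff, hU1, hU₀1,
          ← hchar σ, Polynomial.coeff_map]
        simp
      rw [← e1]
      exact eq_det_smul_of_finrank_eq_one hU1 _
    let ψ' : G →* 𝒪 :=
      { toFun := fun σ => (κ σ : 𝒪) * ψ σ⁻¹
        map_one' := by simp
        map_mul' := fun σ τ => by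
          simp only [map_mul, mul_inv_rev, Units.val_mul]; ring }
    have hψ' : ∀ σ, ψ' σ = (κ σ : 𝒪) * ψ σ⁻¹ := fun σ => rfl
    have h6 : ∀ σ, ψ σ⁻¹ * ψ σ = 1 := fun σ => by rw [← map_mul, inv_mul_cancel, map_one]
    refine ⟨Fin 2 → 𝒪, inferInstance, inferInstance, inferInstance, inferInstance,
      diagRepO ψ ψ', by simp, ?_, ?_, ?_⟩
    · intro σ t ht
      rw [diagRepO_charpoly]
      have h3 := hrel σ _ ht
      rw [hψK σ, hd] at h3
      have h4 : ψ σ * ψ σ - t * ψ σ + (κ σ : 𝒪) = 0 := by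
        apply hinj
        obtain ⟨x, hx⟩ := exists_ne (0 : U)
        have h5 : (algebraMap 𝒪 K (ψ σ) * algebraMap 𝒪 K (ψ σ)
            - algebraMap 𝒪 K t * algebraMap 𝒪 K (ψ σ) + algebraMap 𝒪 K (κ σ : 𝒪)) • x = 0 := by
          have := congrArg (fun z => z x) h3
          simp only [LinearMap.add_apply, LinearMap.sub_apply, Module.End.mul_apply,
            LinearMap.smul_apply, Module.End.one_apply, LinearMap.zero_apply, smul_smul] at this
          rw [add_smul, sub_smul]; exact this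
        rw [map_add, map_sub, map_mul, map_mul, map_zero]
        exact (smul_eq_zero.mp h5).resolve_right hx
      have h8 : ψ σ + ψ' σ = t := by
        rw [hψ']
        linear_combination (ψ σ⁻¹) * h4 + (t - ψ σ) * h6 σ
      have h9 : ψ σ * ψ' σ = (κ σ : 𝒪) := by
        rw [hψ']
        linear_combination (κ σ : 𝒪) * h6 σ
      rw [h8, h9]
    · intro σ hσ1 hσ2
      have h3 : ψ σ = 1 := by
        change LinearMap.det (ρ₀ σ) = 1
        rw [htriv σ hσ1, map_one]
      have h4 : ψ σ⁻¹ = 1 := by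
        have := h6 σ
        rwa [h3, mul_one] at this
      apply diagRepO_eq_one _ _ h3
      rw [hψ', h4, hσ2]; simp
    · intro σ n hσ1 hσ2 v
      set I := IsLocalRing.maximalIdeal 𝒪 ^ n with hI
      let b : Module.Basis (Fin 1) 𝒪 U₀ := Module.finBasisOfFinrankEq 𝒪 U₀ hU₀1
      have h3 : ψ σ - 1 ∈ I := by
        have h := apply_mem_of_mem_smul_top I (b.coord 0) (hcong σ n hσ1 (b 0))
        rw [hψ σ, LinearMap.smul_apply, Module.End.one_apply, map_sub, map_smul] at h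
        simpa using h
      have h4 : ψ σ⁻¹ - 1 ∈ I := by
        have e : ψ σ⁻¹ - 1 = -(ψ σ⁻¹) * (ψ σ - 1) := by
          linear_combination h6 σ
        rw [e]
        exact I.mul_mem_left _ h3
      have h5 : ψ' σ - 1 ∈ I := by
        have e : ψ' σ - 1 = (κ σ : 𝒪) * (ψ σ⁻¹ - 1) + ((κ σ : 𝒪) - 1) := by
          rw [hψ']; ring
        rw [e]
        exact I.add_mem (I.mul_mem_left _ h4) hσ2
      apply mem_smul_top_of_forall
      intro i
      rw [Pi.sub_apply, diagRepO_apply]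
      have e : (![ψ σ, ψ' σ] : Fin 2 → 𝒪) i * v i - v i
          = ((![ψ σ, ψ' σ] : Fin 2 → 𝒪) i - 1) * v i := by ring
      rw [e]
      apply I.mul_mem_right
      fin_cases i
      · exact h3
      · exact h5

end Fermat.Agent.ES.D
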