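/-
ES (D, p-adic part) P7: the `p`-adic cyclotomic character with values in an adically complete ring.

PROOF SKETCH.  `exists_isKappa`: apply `exists_limit_rep` (Limit.lean) with `r = 1` and
`A n σ := fun _ _ => (((cyc (p ^ n) σ : (ZMod (p ^ n))ˣ) : ZMod (p ^ n)).val : ℤ)`  (or redo the limit
directly with `IsPrecomplete.prec`).  `hmul`, `hone`: `cyc (p ^ n)` is a monoid hom and
`(ZMod.intCast_zmod_eq_zero_iff_dvd)`/`ZMod.intCast_eq_intCast_iff_dvd_sub`.  `hcompat`: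
`cyc (p ^ (n+1)) σ` and `cyc (p ^ n) σ` have the same image in `ZMod (p ^ n)` by `cyc_eq_of_forall`
and `cyc_spec` (`ζ ^ p ^ n = 1 → ζ ^ p ^ (n+1) = 1`, and `ζ ^ a` only depends on `a mod p ^ n`).
The `1 × 1` matrix hom gives `κ₀ : GQ →* 𝒪`, then `κ := κ₀.toHomUnits`.
The other statements are formal consequences of `IsKappa` + Cyclo.lean + `IsHausdorff.haus`
(`x ∈ I ^ n` for all `n` implies `x = 0`).
-/
import Fermat.Agent.ES.D.Cyclo
import Fermat.Agent.ES.D.Adic.Limit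

set_option autoImplicit false

namespace Fermat.Agent.ES.D

variable (p : ℕ) [Fact p.Prime] {𝒪 : Type} [CommRing 𝒪] (I : Ideal 𝒪)

/-- `κ` is congruent to the mod `p ^ n` cyclotomic character modulo `I ^ n`, for all `n`. -/
def IsKappa (κ : GQ →* 𝒪ˣ) : Prop :=
  ∀ (n : ℕ) (σ : GQ) (a : ℤ), ((cyc (p ^ n) σ : (ZMod (p ^ n))ˣ) : ZMod (p ^ n)) = (a : ZMod (p ^ n)) →
    (κ σ : 𝒪) - (a : 𝒪) ∈ I ^ n

namespace Kappa

/-- characterisation of `cyc` by a natural exponent. -/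
theorem cyc_eq_natCast (m : ℕ) [NeZero m] (σ : GQ) (a : ℕ)
    (h : ∀ ζ : Qb, ζ ^ m = 1 → σ ζ = ζ ^ a) : ((cyc m σ : (ZMod m)ˣ) : ZMod m) = (a : ZMod m) := by
  apply cyc_eq_of_forall
  intro ζ hζ
  rw [h ζ hζ, ZMod.val_natCast]
  conv_lhs => rw [← Nat.div_add_mod a m, pow_add, pow_mul, hζ, one_pow, one_mul]

/-- the integer representative of `cyc (p ^ n) σ`. -/
noncomputable def rep (n : ℕ) (σ : GQ) : ℤ :=
  (((cyc (p ^ n) σ : (ZMod (p ^ n))ˣ) : ZMod (p ^ n)).val : ℤ)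

theorem cast_rep (n : ℕ) (σ : GQ) :
    ((rep p n σ : ℤ) : ZMod (p ^ n)) = ((cyc (p ^ n) σ : (ZMod (p ^ n))ˣ) : ZMod (p ^ n)) := by
  rw [rep, Int.cast_natCast, ZMod.natCast_zmod_val]

theorem dvd_sub_of_cast_eq {n : ℕ} {a b : ℤ} (h : (a : ZMod (p ^ n)) = (b : ZMod (p ^ n))) :
    (p ^ n : ℤ) ∣ a - b := by
  have := (ZMod.intCast_eq_intCast_iff_dvd_sub b a (p ^ n)).1 h.symm
  exact_mod_cast this

theorem cast_rep_succ (n : ℕ) (σ : GQ) :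
    ((rep p (n + 1) σ : ℤ) : ZMod (p ^ n)) = ((cyc (p ^ n) σ : (ZMod (p ^ n))ˣ) : ZMod (p ^ n)) := by
  rw [rep, Int.cast_natCast]
  symm
  apply cyc_eq_natCast
  intro ζ hζ
  exact cyc_spec (p ^ (n + 1)) σ ζ (by rw [pow_succ, pow_mul, hζ, one_pow])

variable {p I}

theorem cast_mem_pow (hp : (p : 𝒪) ∈ I) {n : ℕ} {x : ℤ} (h : (p ^ n : ℤ) ∣ x) :
    (x : 𝒪) ∈ I ^ n := by
  obtain ⟨y, rfl⟩ := h
  push_cast
  exact Ideal.mul_mem_right _ _ (Ideal.pow_mem_pow hp n)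

theorem eq_of_forall_sub_mem [IsHausdorff I 𝒪] {x y : 𝒪} (h : ∀ n, x - y ∈ I ^ n) : x = y := by
  rw [← sub_eq_zero]
  apply IsHausdorff.haus (I := I) ‹_›
  intro n
  rw [SModEq.zero, smul_eq_mul, Ideal.mul_top]
  exact h n

end Kappa

open Kappa in
theorem exists_isKappa [IsAdicComplete I 𝒪] (hp : (p : 𝒪) ∈ I) :
    ∃ κ : GQ →* 𝒪ˣ, IsKappa p I κ := by
  obtain ⟨R, hR⟩ := exists_limit_rep (r := 1) (G := GQ) I hp
    (fun n σ => Matrix.of fun _ _ => rep p n σ)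
    (by
      intro n σ i j
      simp only [Matrix.sub_apply, Matrix.of_apply]
      apply dvd_sub_of_cast_eq
      rw [cast_rep_succ, cast_rep])
    (by
      intro n i j
      have hij : i = j := Subsingleton.elim _ _
      subst hij
      simp only [Matrix.sub_apply, Matrix.of_apply, Matrix.one_apply_eq]
      apply dvd_sub_of_cast_eq
      rw [cast_rep, map_one]
      simp)
    (by
      intro n σ τ i j
      simp only [Matrix.sub_apply, Matrix.of_apply, Matrix.mul_apply, Finset.univ_unique,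
        Finset.sum_singleton]
      apply dvd_sub_of_cast_eq
      rw [Int.cast_mul, cast_rep, cast_rep, cast_rep, map_mul]
      simp)
  let κ₀ : GQ →* 𝒪 :=
    { toFun := fun σ => R σ 0 0
      map_one' := by rw [map_one]; simp
      map_mul' := fun σ τ => by
        rw [map_mul, Matrix.mul_apply]
        simp }
  refine ⟨κ₀.toHomUnits, fun n σ a ha => ?_⟩
  have h1 : R σ 0 0 - ((rep p n σ : ℤ) : 𝒪) ∈ I ^ n := by
    have := (redMat_eq_iff I).1 (hR n σ) 0 0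
    simpa [castMat_apply] using this
  have h2 : ((rep p n σ - a : ℤ) : 𝒪) ∈ I ^ n := by
    apply cast_mem_pow hp
    apply dvd_sub_of_cast_eq
    rw [cast_rep, ha]
  have h3 : ((κ₀.toHomUnits σ : 𝒪ˣ) : 𝒪) = R σ 0 0 := rfl
  rw [h3]
  have : R σ 0 0 - (a : 𝒪) = (R σ 0 0 - ((rep p n σ : ℤ) : 𝒪)) + ((rep p n σ - a : ℤ) : 𝒪) := by
    push_cast; ring
  rw [this]
  exact Ideal.add_mem _ h1 h2

variable {p I} {κ : GQ →* 𝒪ˣ}

theorem IsKappa.frobenius [IsHausdorff I 𝒪] (hκ : IsKappa p I κ) {ℓ : ℕ} (hℓ : ℓ.Prime)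
    (hℓp : ℓ ≠ p) {A : ValuationSubring Qb} (hA : A.LiesOverPrime ℓ) {σ : GQ}
    (hσ : A.IsFrobeniusAt σ ℓ) : (κ σ : 𝒪) = (ℓ : 𝒪) := by
  apply Kappa.eq_of_forall_sub_mem (I := I)
  intro n
  have hnd : ¬ ℓ ∣ p ^ n := fun h =>
    hℓp ((Nat.prime_dvd_prime_iff_eq hℓ Fact.out).1 (hℓ.dvd_of_dvd_pow h))
  have := hκ n σ (ℓ : ℤ) (by rw [cyc_frobenius (p ^ n) hℓ hnd hA hσ, Int.cast_natCast])
  simpa using this

theorem IsKappa.inertia [IsHausdorff I 𝒪] (hκ : IsKappa p I κ) {ℓ : ℕ} (hℓ : ℓ.Prime)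
    (hℓp : ℓ ≠ p) {A : ValuationSubring Qb} (hA : A.LiesOverPrime ℓ) {σ : GQ}
    (hσ : σ ∈ A.inertiaSubgroupIn ℚ) : κ σ = 1 := by
  ext
  rw [Units.val_one]
  apply Kappa.eq_of_forall_sub_mem (I := I)
  intro n
  have hnd : ¬ ℓ ∣ p ^ n := fun h =>
    hℓp ((Nat.prime_dvd_prime_iff_eq hℓ Fact.out).1 (hℓ.dvd_of_dvd_pow h))
  have := hκ n σ 1 (by rw [cyc_inertia (p ^ n) hℓ hnd hA hσ]; simp)
  simpa using this

/-- `κ σ mod I ^ n` only depends on the action of `σ` on the `p ^ n`-th roots of unity. -/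
theorem IsKappa.congr (hκ : IsKappa p I κ) (n : ℕ) {σ τ : GQ}
    (h : ∀ ζ : Qb, ζ ^ p ^ n = 1 → σ ζ = τ ζ) : (κ σ : 𝒪) - (κ τ : 𝒪) ∈ I ^ n := by
  have h1 : ((cyc (p ^ n) σ : (ZMod (p ^ n))ˣ) : ZMod (p ^ n)) =
      ((cyc (p ^ n) τ : (ZMod (p ^ n))ˣ) : ZMod (p ^ n)) := by
    apply cyc_eq_of_forall
    intro ζ hζ
    rw [h ζ hζ]
    exact cyc_spec (p ^ n) τ ζ hζ
  have h2 := hκ n σ (Kappa.rep p n τ) (by rw [Kappa.cast_rep, h1])
  have h3 := hκ n τ (Kappa.rep p n τ) (by rw [Kappa.cast_rep])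
  have := Ideal.sub_mem _ h2 h3
  simpa using this

theorem IsKappa.level (hκ : IsKappa p I κ) (n : ℕ) :
    ∃ L : IntermediateField ℚ Qb, FiniteDimensional ℚ L ∧ (∀ ζ : Qb, ζ ^ p ^ n = 1 → ζ ∈ L) ∧
      ∀ σ : GQ, (∀ x ∈ L, σ x = x) → (κ σ : 𝒪) - 1 ∈ I ^ n := by
  have hfin : {ζ : Qb | ζ ^ p ^ n = 1}.Finite := by
    have : {ζ : Qb | ζ ^ p ^ n = 1} ⊆ ((Polynomial.nthRoots (p ^ n) (1 : Qb)).toFinset : Set Qb) := by
      intro ζ hζ
      simp only [Finset.mem_coe, Multiset.mem_toFinset]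
      exact (Polynomial.mem_nthRoots (Nat.pos_of_ne_zero (NeZero.ne (p ^ n)))).mpr hζ
    exact (Finset.finite_toSet _).subset this
  refine ⟨IntermediateField.adjoin ℚ {ζ : Qb | ζ ^ p ^ n = 1}, ?_, ?_, ?_⟩
  · have := hfin.to_subtype
    exact IntermediateField.finiteDimensional_adjoin
      (fun x _ => (isAlgebraic_Qb.isAlgebraic x).isIntegral)
  · intro ζ hζ
    exact IntermediateField.subset_adjoin _ _ hζ
  · intro σ hσ
    have h1 := cyc_eq_one_of_fixes (p ^ n) σ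
      (fun ζ hζ => hσ ζ (IntermediateField.subset_adjoin _ _ hζ))
    have := hκ n σ 1 (by rw [h1]; simp)
    simpa using this

theorem IsKappa.conj [IsHausdorff I 𝒪] (hκ : IsKappa p I κ) {c : GQ}
    (hc : ∀ ζ : Qb, ∀ m : ℕ, m ≠ 0 → ζ ^ m = 1 → c ζ = ζ⁻¹) : (κ c : 𝒪) = -1 := by
  apply Kappa.eq_of_forall_sub_mem (I := I)
  intro n
  have hpos : 1 ≤ p ^ n := Nat.one_le_iff_ne_zero.2 (NeZero.ne (p ^ n))
  have h1 : ((cyc (p ^ n) c : (ZMod (p ^ n))ˣ) : ZMod (p ^ n)) = ((p ^ n - 1 : ℕ) : ZMod (p ^ n)) := by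
    apply Kappa.cyc_eq_natCast
    intro ζ hζ
    rw [hc ζ (p ^ n) (NeZero.ne _) hζ]
    have hζ0 : ζ ≠ 0 := by
      rintro rfl
      rw [zero_pow (NeZero.ne _)] at hζ
      exact zero_ne_one hζ
    apply mul_left_cancel₀ hζ0
    rw [mul_inv_cancel₀ hζ0, ← pow_succ', Nat.sub_add_cancel hpos, hζ]
  have := hκ n c (-1) (by
    rw [h1, Nat.cast_sub hpos]
    simp)
  simpa using this

end Fermat.Agent.ES.D
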