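/-
ES (D, p-adic part) P4: a `K`-subspace `U ⊆ K^r` stable under a group of matrices with entries in
a DVR `𝒪` (`K = Frac 𝒪`) contains the stable lattice `U₀ = U ∩ 𝒪^r`, which is free of rank `dim U`.

PROOF SKETCH.  `ι : (Fin r → 𝒪) →ₗ[𝒪] (Fin r → K)` coordinatewise `algebraMap` (injective);
`U₀ := (U.restrictScalars 𝒪).comap ι`, a submodule of the free f.g. module `𝒪^r` over a PID, hence
free and finite.  `ρ₀ σ := (Matrix.toLin' (M σ)).restrict _` (`ι (M σ *ᵥ x) = actK K M σ (ι x)`).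
A basis `b` of `U₀` maps to a `K`-basis of `U`: linearly independent
(`LinearIndependent.iff_fractionRing` / clear denominators), spanning (every `u ∈ U` has
`a • u ∈ ι U₀` for some `a ≠ 0`: `IsLocalization.exist_integer_multiples_of_finset` or
`IsFractionRing.div_surjective` coordinatewise).  So `finrank` agree and the matrix of `ρ₀ σ` in `b`
maps to the matrix of the restriction in the image basis: `LinearMap.charpoly_toMatrix`,
`Matrix.charpoly_map`.
SATURATION (last clause): `𝔪 ^ n = (ϖ ^ n)`; if `M σ *ᵥ v - v = ϖ ^ n • w` with `w ∈ 𝒪^r` and `v ∈ U₀`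
then `ι w = ϖ^{-n} • (…) ∈ U`, so `w ∈ U₀`.
-/
import Fermat.Agent.ES.D.Abstract

set_option autoImplicit false

namespace Fermat.Agent.ES.D

open Polynomial

variable {𝒪 : Type} [CommRing 𝒪] {r : ℕ} {G : Type} [Group G]

/-- the action on `K^r` of a matrix representation over `𝒪`. -/
noncomputable def actK (K : Type) [Field K] [Algebra 𝒪 K] (M : G →* Matrix (Fin r) (Fin r) 𝒪) :
    G →* Module.End K (Fin r → K) where
  toFun σ := Matrix.toLin' ((algebraMap 𝒪 K).mapMatrix (M σ))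
  map_one' := by rw [map_one, map_one, Matrix.toLin'_one]; rfl
  map_mul' σ τ := by rw [map_mul, map_mul, Matrix.toLin'_mul]; rfl

theorem actK_apply {K : Type} [Field K] [Algebra 𝒪 K] (M : G →* Matrix (Fin r) (Fin r) 𝒪) (σ : G)
    (x : Fin r → K) : actK K M σ x = ((algebraMap 𝒪 K).mapMatrix (M σ)).mulVec x := rfl

variable [IsDomain 𝒪] [IsDiscreteValuationRing 𝒪]
  {K : Type} [Field K] [Algebra 𝒪 K] [IsFractionRing 𝒪 K]

theorem exists_lattice_rep (M : G →* Matrix (Fin r) (Fin r) 𝒪) (U : Submodule K (Fin r → K))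
    (hU : ∀ σ, ∀ x ∈ U, actK K M σ x ∈ U) :
    ∃ (U₀ : Type) (_ : AddCommGroup U₀) (_ : Module 𝒪 U₀) (_ : Module.Free 𝒪 U₀)
      (_ : Module.Finite 𝒪 U₀) (ρ₀ : G →* Module.End 𝒪 U₀),
      Module.finrank 𝒪 U₀ = Module.finrank K U ∧
      (∀ σ, (LinearMap.charpoly (ρ₀ σ)).map (algebraMap 𝒪 K)
        = LinearMap.charpoly (restrictRep (actK K M) U hU σ)) ∧
      (∀ σ, M σ = 1 → ρ₀ σ = 1) ∧
      (∀ (σ : G) (n : ℕ), (∀ i j, (M σ - 1) i j ∈ IsLocalRing.maximalIdeal 𝒪 ^ n) →
        ∀ v : U₀, ρ₀ σ v - v ∈ (IsLocalRing.maximalIdeal 𝒪 ^ n) • (⊤ : Submodule 𝒪 U₀)) := by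
  classical
  -- the coordinatewise embedding
  let ι : (Fin r → 𝒪) →ₗ[𝒪] (Fin r → K) := (Algebra.linearMap 𝒪 K).compLeft (Fin r)
  have hι : ∀ x i, ι x i = algebraMap 𝒪 K (x i) := fun _ _ => rfl
  have hιinj : Function.Injective ι := by
    intro x y hxy
    funext i
    exact IsFractionRing.injective 𝒪 K (by rw [← hι, ← hι, hxy])
  have hιM : ∀ σ x, ι ((M σ).mulVec x) = actK K M σ (ι x) := by
    intro σ x
    funext i
    rw [actK_apply, hι]
    simp only [Matrix.mulVec, dotProduct, map_sum, map_mul, RingHom.mapMatrix_apply,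
      Matrix.map_apply, hι]
  let U₀ : Submodule 𝒪 (Fin r → 𝒪) := (U.restrictScalars 𝒪).comap ι
  have hmem : ∀ x, x ∈ U₀ ↔ ι x ∈ U := fun _ => Iff.rfl
  have hst : ∀ σ, ∀ x ∈ U₀, Matrix.toLin' (M σ) x ∈ U₀ := by
    intro σ x hx
    rw [hmem, Matrix.toLin'_apply, hιM]
    exact hU σ _ hx
  let ρ₀ : G →* Module.End 𝒪 U₀ :=
    { toFun := fun σ => (Matrix.toLin' (M σ)).restrict (hst σ)
      map_one' := by
        ext x : 2
        simp
      map_mul' := fun σ τ => by
        ext x : 2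
        simp [Matrix.toLin'_mul] }
  have hρ₀ : ∀ σ (x : U₀), ((ρ₀ σ x : U₀) : Fin r → 𝒪) = (M σ).mulVec x := fun _ _ => rfl
  -- the map `U₀ → U`
  let e : U₀ → U := fun x => ⟨ι x, x.2⟩
  have he_add : ∀ x y, e (x + y) = e x + e y := fun x y => Subtype.ext (map_add ι _ _)
  have he_smul : ∀ (a : 𝒪) x, e (a • x) = algebraMap 𝒪 K a • e x := fun a x => Subtype.ext (by
    show ι (a • (x : Fin r → 𝒪)) = algebraMap 𝒪 K a • ι x
    rw [map_smul, algebraMap_smul])
  have he_zero : e 0 = 0 := Subtype.ext (map_zero ι)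
  have he_sum : ∀ (s : Finset (Fin (Module.finrank 𝒪 U₀))) (f : Fin (Module.finrank 𝒪 U₀) → U₀),
      e (∑ i ∈ s, f i) = ∑ i ∈ s, e (f i) := by
    intro s f
    induction s using Finset.induction_on with
    | empty => simpa using he_zero
    | insert a s ha ih => rw [Finset.sum_insert ha, Finset.sum_insert ha, he_add, ih]
  let b : Module.Basis (Fin (Module.finrank 𝒪 U₀)) 𝒪 U₀ := Module.finBasis 𝒪 U₀
  -- linear independence
  have hli : LinearIndependent K (fun i => e (b i)) := by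
    have h1 : LinearIndependent 𝒪 (fun i => ι (b i : Fin r → 𝒪)) := by
      have h2 := b.linearIndependent.map' (ι.comp U₀.subtype) (by
        rw [LinearMap.ker_eq_bot]
        exact hιinj.comp Subtype.val_injective)
      exact h2
    have h3 : LinearIndependent K (fun i => ι (b i : Fin r → 𝒪)) :=
      (LinearIndependent.iff_fractionRing 𝒪 K).mp h1
    exact LinearIndependent.of_comp U.subtype h3
  have hsp : ⊤ ≤ Submodule.span K (Set.range fun i => e (b i)) := by
    rintro ⟨u, hu⟩ -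
    obtain ⟨a, ha⟩ := IsLocalization.exist_integer_multiples_of_finite (nonZeroDivisors 𝒪) u
    choose x hx using ha
    have ha0 : algebraMap 𝒪 K (a : 𝒪) ≠ 0 := by
      simpa using nonZeroDivisors.ne_zero a.2
    have hxu : ι x = algebraMap 𝒪 K (a : 𝒪) • u := by
      funext i
      rw [hι, hx i, Pi.smul_apply, Algebra.smul_def, smul_eq_mul]
    have hxU : x ∈ U₀ := by
      rw [hmem, hxu]
      exact U.smul_mem _ hu
    have h1 : e ⟨x, hxU⟩ ∈ Submodule.span K (Set.range fun i => e (b i)) := by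
      rw [← b.sum_repr ⟨x, hxU⟩, he_sum]
      refine Submodule.sum_mem _ fun i _ => ?_
      rw [he_smul]
      exact Submodule.smul_mem _ _ (Submodule.subset_span ⟨i, rfl⟩)
    have h2 : (⟨u, hu⟩ : U) = (algebraMap 𝒪 K (a : 𝒪))⁻¹ • e ⟨x, hxU⟩ := by
      apply Subtype.ext
      show u = (algebraMap 𝒪 K (a : 𝒪))⁻¹ • ι x
      rw [hxu, smul_smul, inv_mul_cancel₀ ha0, one_smul]
    rw [h2]
    exact Submodule.smul_mem _ _ h1
  let b' : Module.Basis (Fin (Module.finrank 𝒪 U₀)) K U := Module.Basis.mk hli hsp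
  have hb' : ∀ i, b' i = e (b i) := fun i => Module.Basis.mk_apply hli hsp i
  have hrepr : ∀ (x : U₀) i, b'.repr (e x) i = algebraMap 𝒪 K (b.repr x i) := by
    intro x i
    have h1 : e x = ∑ j, algebraMap 𝒪 K (b.repr x j) • b' j := by
      conv_lhs => rw [← b.sum_repr x, he_sum]
      refine Finset.sum_congr rfl fun j _ => ?_
      rw [he_smul, hb']
    rw [h1, Module.Basis.repr_sum_self]
  refine ⟨U₀, inferInstance, inferInstance, inferInstance, inferInstance, ρ₀, ?_, ?_, ?_, ?_⟩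
  · rw [Module.finrank_eq_card_basis b', Fintype.card_fin]
  · intro σ
    rw [← LinearMap.charpoly_toMatrix (ρ₀ σ) b,
      ← LinearMap.charpoly_toMatrix (restrictRep (actK K M) U hU σ) b', ← Matrix.charpoly_map]
    congr 1
    ext i j
    rw [Matrix.map_apply, LinearMap.toMatrix_apply, LinearMap.toMatrix_apply, ← hrepr, hb']
    congr 2
    apply Subtype.ext
    rw [restrictRep_apply]
    show ι ((ρ₀ σ (b j) : U₀) : Fin r → 𝒪) = actK K M σ (ι (b j))
    rw [hρ₀, hιM]
  · intro σ hσ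
    ext x : 2
    rw [hρ₀, hσ, Matrix.one_mulVec]
    rfl
  · intro σ n hn v
    obtain ⟨ϖ, hϖ⟩ := IsDiscreteValuationRing.exists_irreducible 𝒪
    have hmax : IsLocalRing.maximalIdeal 𝒪 ^ n = Ideal.span {ϖ ^ n} := by
      rw [hϖ.maximalIdeal_eq, Ideal.span_singleton_pow]
    have hent : ∀ i, ∃ w : 𝒪, ((M σ - 1).mulVec (v : Fin r → 𝒪)) i = ϖ ^ n * w := by
      intro i
      have : ((M σ - 1).mulVec (v : Fin r → 𝒪)) i ∈ IsLocalRing.maximalIdeal 𝒪 ^ n := by
        simp only [Matrix.mulVec, dotProduct]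
        exact Ideal.sum_mem _ fun j _ => Ideal.mul_mem_right _ _ (hn i j)
      rw [hmax, Ideal.mem_span_singleton] at this
      exact this
    choose w hw using hent
    have hw' : (M σ).mulVec (v : Fin r → 𝒪) - v = ϖ ^ n • w := by
      funext i
      rw [Pi.smul_apply, smul_eq_mul, ← hw i, Matrix.sub_mulVec, Matrix.one_mulVec]
    have hϖK : algebraMap 𝒪 K (ϖ ^ n) ≠ 0 := by
      simpa using pow_ne_zero n hϖ.ne_zero
    have hwU : w ∈ U₀ := by
      rw [hmem]
      have h1 : algebraMap 𝒪 K (ϖ ^ n) • ι w ∈ U := by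
        rw [algebraMap_smul, ← map_smul, ← hw', map_sub, hιM]
        exact U.sub_mem (hU σ _ v.2) v.2
      have h2 := U.smul_mem (algebraMap 𝒪 K (ϖ ^ n))⁻¹ h1
      rwa [smul_smul, inv_mul_cancel₀ hϖK, one_smul] at h2
    have h3 : ρ₀ σ v - v = ϖ ^ n • (⟨w, hwU⟩ : U₀) := Subtype.ext hw'
    rw [h3]
    exact Submodule.smul_mem_smul (by rw [hmax]; exact Ideal.mem_span_singleton_self _)
      Submodule.mem_top

end Fermat.Agent.ES.D
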