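/-
ES (D, p-adic part) P1: limits of compatible systems of integer matrices in an adically complete
ring.  Mathlib only.

PROOF SKETCH of `exists_limit_rep`.  For fixed `σ i j` the sequence `n ↦ (A n σ i j : 𝒪)` satisfies
`a m ≡ a n [SMOD I ^ m • ⊤]` for `m ≤ n` (induction from `hcompat`, `p ^ m ∈ I ^ m`), so
`IsPrecomplete.prec` gives a limit `R σ i j` with `R σ i j - a n ∈ I ^ n`
(`SModEq.sub_mem`, `smul_eq_mul`, `Ideal.mul_top`).  This is the displayed congruence.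
Multiplicativity: `redMat I n` and `castMat` are ring homomorphisms, so
`redMat I n (R (σ τ) - R σ * R τ) = redMat I n (castMat (A n (σ τ) - A n σ * A n τ)) = 0` for all `n`
(`redMat_castMat_eq_zero`), and `eq_zero_of_redMat` concludes.  Same for `R 1 = 1`.
-/
import Mathlib

set_option autoImplicit false

namespace Fermat.Agent.ES.D

variable {𝒪 : Type*} [CommRing 𝒪] (I : Ideal 𝒪) {r : ℕ}

/-- reduction of matrices modulo `I ^ n`. -/
noncomputable def redMat (n : ℕ) :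
    Matrix (Fin r) (Fin r) 𝒪 →+* Matrix (Fin r) (Fin r) (𝒪 ⧸ I ^ n) :=
  (Ideal.Quotient.mk (I ^ n)).mapMatrix

/-- integer matrices as matrices over `𝒪`. -/
noncomputable def castMat (𝒪 : Type*) [CommRing 𝒪] {r : ℕ} :
    Matrix (Fin r) (Fin r) ℤ →+* Matrix (Fin r) (Fin r) 𝒪 :=
  (Int.castRingHom 𝒪).mapMatrix

theorem castMat_apply (B : Matrix (Fin r) (Fin r) ℤ) (i j : Fin r) :
    castMat 𝒪 B i j = ((B i j : ℤ) : 𝒪) := rfl

theorem redMat_eq_zero_iff {n : ℕ} {X : Matrix (Fin r) (Fin r) 𝒪} :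
    redMat I n X = 0 ↔ ∀ i j, X i j ∈ I ^ n := by
  constructor
  · intro h i j
    have := congrFun (congrFun h i) j
    exact Ideal.Quotient.eq_zero_iff_mem.mp this
  · intro h
    ext i j
    exact Ideal.Quotient.eq_zero_iff_mem.mpr (h i j)

theorem redMat_eq_iff {n : ℕ} {X Y : Matrix (Fin r) (Fin r) 𝒪} :
    redMat I n X = redMat I n Y ↔ ∀ i j, X i j - Y i j ∈ I ^ n := by
  rw [← sub_eq_zero, ← map_sub, redMat_eq_zero_iff]
  rfl

theorem eq_zero_of_redMat [IsHausdorff I 𝒪] {X : Matrix (Fin r) (Fin r) 𝒪}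
    (h : ∀ n, redMat I n X = 0) : X = 0 := by
  ext i j
  refine IsHausdorff.haus (I := I) inferInstance (X i j) ?_
  intro n
  have := (redMat_eq_zero_iff I).mp (h n) i j
  rw [SModEq.zero, smul_eq_mul, Ideal.mul_top]
  exact this

theorem eq_of_redMat [IsHausdorff I 𝒪] {X Y : Matrix (Fin r) (Fin r) 𝒪}
    (h : ∀ n, redMat I n X = redMat I n Y) : X = Y := by
  rw [← sub_eq_zero]
  refine eq_zero_of_redMat I ?_
  intro n
  rw [map_sub, h n, sub_self]

theorem redMat_castMat_eq_zero {p : ℕ} (hp : (p : 𝒪) ∈ I) {n : ℕ} {B : Matrix (Fin r) (Fin r) ℤ}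
    (h : ∀ i j, (p ^ n : ℤ) ∣ B i j) : redMat I n (castMat 𝒪 B) = 0 := by
  rw [redMat_eq_zero_iff]
  intro i j
  obtain ⟨c, hc⟩ := h i j
  rw [castMat_apply, hc]
  push_cast
  exact Ideal.mul_mem_right _ _ (Ideal.pow_mem_pow hp n)

/-- compatibility of the system for arbitrary `m ≤ n`. -/
theorem redMat_castMat_compat {G : Type*} {p : ℕ} (hp : (p : 𝒪) ∈ I)
    (A : ℕ → G → Matrix (Fin r) (Fin r) ℤ)
    (hcompat : ∀ n σ i j, (p ^ n : ℤ) ∣ (A (n + 1) σ - A n σ) i j) {m n : ℕ} (hmn : m ≤ n) (σ : G) :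
    redMat I m (castMat 𝒪 (A n σ)) = redMat I m (castMat 𝒪 (A m σ)) := by
  induction n, hmn using Nat.le_induction with
  | base => rfl
  | succ n hmn ih =>
    rw [← ih, ← sub_eq_zero, ← map_sub, ← map_sub]
    refine redMat_castMat_eq_zero I hp ?_
    intro i j
    exact (pow_dvd_pow (p : ℤ) hmn).trans (hcompat n σ i j)

/-- **The limit representation.** -/
theorem exists_limit_rep {G : Type*} [Group G] [IsAdicComplete I 𝒪] {p : ℕ} (hp : (p : 𝒪) ∈ I)
    (A : ℕ → G → Matrix (Fin r) (Fin r) ℤ)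
    (hcompat : ∀ n σ i j, (p ^ n : ℤ) ∣ (A (n + 1) σ - A n σ) i j)
    (hone : ∀ n i j, (p ^ n : ℤ) ∣ (A n 1 - 1) i j)
    (hmul : ∀ n σ τ i j, (p ^ n : ℤ) ∣ (A n (σ * τ) - A n σ * A n τ) i j) :
    ∃ R : G →* Matrix (Fin r) (Fin r) 𝒪,
      ∀ n σ, redMat I n (R σ) = redMat I n (castMat 𝒪 (A n σ)) := by
  have hex : ∀ σ i j, ∃ L : 𝒪, ∀ n, ((A n σ i j : ℤ) : 𝒪) ≡ L [SMOD (I ^ n • ⊤ : Submodule 𝒪 𝒪)] := by
    intro σ i j
    refine IsPrecomplete.prec (I := I) inferInstance (f := fun n => ((A n σ i j : ℤ) : 𝒪)) ?_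
    intro m n hmn
    have h := (redMat_eq_iff I).mp (redMat_castMat_compat I hp A hcompat hmn σ) i j
    rw [SModEq.sub_mem, smul_eq_mul, Ideal.mul_top]
    rw [castMat_apply, castMat_apply] at h
    have h2 := (I ^ m).neg_mem h
    rwa [neg_sub] at h2
  choose L hL using hex
  have hR : ∀ n σ, redMat I n (Matrix.of (L σ)) = redMat I n (castMat 𝒪 (A n σ)) := by
    intro n σ
    rw [redMat_eq_iff]
    intro i j
    have h := hL σ i j n
    rw [SModEq.sub_mem, smul_eq_mul, Ideal.mul_top] at h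
    have h2 := (I ^ n).neg_mem h
    rwa [neg_sub] at h2
  refine ⟨{ toFun := fun σ => Matrix.of (L σ), map_one' := ?_, map_mul' := ?_ }, hR⟩
  · refine eq_of_redMat I ?_
    intro n
    rw [hR, ← sub_eq_zero, ← map_one (castMat 𝒪), ← map_sub, ← map_sub]
    exact redMat_castMat_eq_zero I hp (hone n)
  · intro σ τ
    refine eq_of_redMat I ?_
    intro n
    rw [map_mul, hR, hR, hR, ← map_mul, ← map_mul, ← sub_eq_zero, ← map_sub, ← map_sub]
    exact redMat_castMat_eq_zero I hp (hmul n σ τ)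

end Fermat.Agent.ES.D
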