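/-
ES (D, p-adic part): the quadratic relation `R(σ)² - t R(σ) + κ(σ) = 0` on the eigenlattice, for ALL
`σ ∈ G_ℚ`:  Frobenius density at each finite level, `2 × 2` minors, and separatedness.
-/
import Fermat.Agent.ES.D.Adic.AdicTowerDefs
import Fermat.Agent.ES.D.Adic.Limit
import Fermat.Agent.ES.D.Adic.Kappa
import Fermat.Agent.ES.D.Adic.Lattice

set_option autoImplicit false

namespace Fermat.Agent.ES.D

namespace Quad

theorem pow_aux {k R : Type*} [CommRing k] [Ring R] [Algebra k R] {x y : R} {t d : k}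
    (hc : Commute x y) (hs : x + y = t • (1 : R)) (hp : x * y = d • (1 : R)) (j : ℕ) :
    (∃ s : k, x ^ j + y ^ j = s • (1 : R)) ∧ (∃ s : k, x ^ (j+1) + y ^ (j+1) = s • (1 : R)) := by
  induction j with
  | zero =>
    refine ⟨⟨2, ?_⟩, ⟨t, by simpa using hs⟩⟩
    simp only [pow_zero]
    rw [← one_add_one_eq_two, add_smul, one_smul]
  | succ n ih =>
    obtain ⟨⟨s0, h0⟩, ⟨s1, h1⟩⟩ := ih
    refine ⟨⟨s1, h1⟩, ⟨t * s1 - d * s0, ?_⟩⟩
    have e : x ^ (n + 1 + 1) + y ^ (n + 1 + 1)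
        = (x + y) * (x ^ (n + 1) + y ^ (n + 1)) - (x * y) * (x ^ n + y ^ n) := by
      have h2 : y * x ^ (n+1) = x * y * x ^ n := by
        rw [pow_succ', ← mul_assoc, hc.eq]
      have h3 : x * y ^ (n+1) = x * y * y ^ n := by
        rw [pow_succ', ← mul_assoc]
      rw [add_mul, mul_add, mul_add, mul_add, h2, h3, pow_succ' x (n+1), pow_succ' y (n+1)]
      abel
    rw [e, hs, hp, h0, h1]
    simp only [smul_mul_assoc, one_mul, smul_smul, sub_smul]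

/-- `quad_pow` over a commutative ring. -/
theorem pow {k R : Type*} [CommRing k] [Ring R] [Algebra k R] {x : R} {t d : k}
    (h : x * x - t • x + d • (1 : R) = 0) (j : ℕ) :
    ∃ s : k, x ^ j * x ^ j - s • x ^ j + d ^ j • (1 : R) = 0 := by
  set y : R := t • (1 : R) - x with hy
  have hc : Commute x y := by
    rw [hy]
    exact ((Commute.one_right x).smul_right t).sub_right (Commute.refl x)
  have hs : x + y = t • (1 : R) := by rw [hy]; abel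
  have hp : x * y = d • (1 : R) := by
    rw [hy, mul_sub, mul_smul_comm, mul_one]
    have : d • (1 : R) = t • x - x * x := by
      rw [eq_sub_iff_add_eq]
      have h' := h
      rw [sub_add_eq_add_sub, sub_eq_zero] at h'
      rw [add_comm]; exact h'
    rw [this]
  obtain ⟨s, hsj⟩ := (pow_aux hc hs hp j).1
  refine ⟨s, ?_⟩
  have h1 : s • x ^ j = (x ^ j + y ^ j) * x ^ j := by rw [hsj, smul_mul_assoc, one_mul]
  have h2 : y ^ j * x ^ j = d ^ j • (1 : R) := by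
    rw [← (hc.symm).mul_pow, hc.symm.eq, hp, _root_.smul_pow, one_pow]
  rw [h1, add_mul, h2]
  abel

theorem eq_zero_of_forall_mem_pow {𝒪 : Type*} [CommRing 𝒪] (I : Ideal 𝒪) [IsHausdorff I 𝒪] {x : 𝒪}
    (h : ∀ n, x ∈ I ^ n) : x = 0 := by
  apply IsHausdorff.haus (I := I) ‹_› x
  intro n
  rw [SModEq.zero, smul_eq_mul, Ideal.mul_top]
  exact h n

theorem mulVec_mem {𝒪 : Type*} [CommRing 𝒪] (J : Ideal 𝒪) {r : ℕ} {Z : Matrix (Fin r) (Fin r) 𝒪}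
    (hZ : ∀ i j, Z i j ∈ J) (w : Fin r → 𝒪) (i : Fin r) : (Z.mulVec w) i ∈ J := by
  rw [Matrix.mulVec, dotProduct]
  exact Ideal.sum_mem _ fun j _ => J.mul_mem_right _ (hZ i j)

/-- **Minors + separatedness**: approximate quadratic relations give an exact one over the fraction
field. -/
theorem exists_of_approx {𝒪 : Type*} [CommRing 𝒪] [IsDomain 𝒪] (I : Ideal 𝒪) [IsHausdorff I 𝒪]
    (K : Type*) [Field K] [Algebra 𝒪 K] [IsFractionRing 𝒪 K] {r : ℕ}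
    (W₀ : Submodule 𝒪 (Fin r → 𝒪)) (X : Matrix (Fin r) (Fin r) 𝒪)
    (hX : ∀ w, X.mulVec w = 0 → w = 0) (d : 𝒪)
    (h : ∀ n, ∃ s : 𝒪, ∀ w ∈ W₀, ∀ i,
      (X.mulVec (X.mulVec w) - s • X.mulVec w + d • w) i ∈ I ^ n) :
    ∃ t : K, ∀ w ∈ W₀, ∀ i, algebraMap 𝒪 K ((X.mulVec (X.mulVec w) + d • w) i)
      = t * algebraMap 𝒪 K ((X.mulVec w) i) := by
  by_cases hW : ∃ w' ∈ W₀, w' ≠ 0
  · obtain ⟨w', hw', hw'0⟩ := hW
    have h1 : X.mulVec w' ≠ 0 := fun h0 => hw'0 (hX w' h0)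
    obtain ⟨i', hi'⟩ := Function.ne_iff.mp h1
    have hi'K : algebraMap 𝒪 K ((X.mulVec w') i') ≠ 0 := by
      intro h0
      exact hi' ((map_eq_zero_iff _ (IsFractionRing.injective 𝒪 K)).mp h0)
    refine ⟨algebraMap 𝒪 K ((X.mulVec (X.mulVec w') + d • w') i')
      / algebraMap 𝒪 K ((X.mulVec w') i'), fun w hw i => ?_⟩
    have hminor : (X.mulVec (X.mulVec w) + d • w) i * (X.mulVec w') i'
        - (X.mulVec (X.mulVec w') + d • w') i' * (X.mulVec w) i = 0 := by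
      apply eq_zero_of_forall_mem_pow I
      intro n
      obtain ⟨s, hs⟩ := h n
      have e1 := hs w hw i
      have e2 := hs w' hw' i'
      have : (X.mulVec (X.mulVec w) + d • w) i * (X.mulVec w') i'
          - (X.mulVec (X.mulVec w') + d • w') i' * (X.mulVec w) i
          = (X.mulVec (X.mulVec w) - s • X.mulVec w + d • w) i * (X.mulVec w') i'
            - (X.mulVec (X.mulVec w') - s • X.mulVec w' + d • w') i' * (X.mulVec w) i := by
        simp only [Pi.add_apply, Pi.sub_apply, Pi.smul_apply, smul_eq_mul]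
        ring
      rw [this]
      exact Ideal.sub_mem _ (Ideal.mul_mem_right _ _ e1) (Ideal.mul_mem_right _ _ e2)
    rw [sub_eq_zero] at hminor
    have := congrArg (algebraMap 𝒪 K) hminor
    rw [map_mul, map_mul] at this
    field_simp
    exact this
  · push Not at hW
    refine ⟨0, fun w hw i => ?_⟩
    rw [hW w hw]
    simp

end Quad

section approx

namespace AdicTower

variable {N : ℕ} [NeZero N] {p : ℕ} {𝒪 : Type} [CommRing 𝒪] {I : Ideal 𝒪} (E : AdicTower N p 𝒪 I)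

/-- the eigenlattice of an eigensystem `a` (away from `S`) in `𝒪^r`. -/
def eigenLattice (S : Finset ℕ) (a : GoodPrime N → 𝒪) : Submodule 𝒪 (Fin E.r → 𝒪) where
  carrier := {w | ∀ ℓ : GoodPrime N, ℓ.1 ∉ S → (E.T ℓ).mulVec w = a ℓ • w}
  add_mem' := by
    intro w w' hw hw' ℓ hℓ
    rw [Matrix.mulVec_add, hw ℓ hℓ, hw' ℓ hℓ, smul_add]
  zero_mem' := by
    intro ℓ _
    rw [Matrix.mulVec_zero, smul_zero]
  smul_mem' := by
    intro c w hw ℓ hℓ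
    rw [Matrix.mulVec_smul, hw ℓ hℓ, smul_comm]

variable {S : Finset ℕ} {a : GoodPrime N → 𝒪}

theorem mulVec_mem (σ : GQ) {w : Fin E.r → 𝒪} (hw : w ∈ E.eigenLattice S a) :
    (E.R σ).mulVec w ∈ E.eigenLattice S a := by
  intro ℓ hℓ
  rw [Matrix.mulVec_mulVec, (E.T_R_comm ℓ σ).eq, ← Matrix.mulVec_mulVec, hw ℓ hℓ,
    Matrix.mulVec_smul]

/-- the Galois action on the eigenlattice. -/
noncomputable def latRep (S : Finset ℕ) (a : GoodPrime N → 𝒪) :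
    GQ →* Module.End 𝒪 (E.eigenLattice S a) where
  toFun σ := (Matrix.toLin' (E.R σ)).restrict (fun _ hw => E.mulVec_mem σ hw)
  map_one' := by
    ext w
    simp
  map_mul' σ τ := by
    ext w
    change ((E.R (σ * τ)).mulVec (w : Fin E.r → 𝒪)) _ = ((E.R σ).mulVec ((E.R τ).mulVec w)) _
    rw [map_mul, Matrix.mulVec_mulVec]

theorem frob_rel (ℓ : GoodPrime N) (hℓS : ℓ.1 ∉ S) (hℓp : ℓ.1 ≠ p) {A : ValuationSubring Qb}
    (hA : A.LiesOverPrime ℓ.1) {φ : GQ} (hφ : A.IsFrobeniusAt φ ℓ.1)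
    {w : Fin E.r → 𝒪} (hw : w ∈ E.eigenLattice S a) :
    (E.R φ).mulVec ((E.R φ).mulVec w) - a ℓ • (E.R φ).mulVec w + (ℓ.1 : 𝒪) • w = 0 := by
  have h1 := congrArg (fun Z => Z.mulVec w) (E.es ℓ hℓp A hA φ hφ)
  simp only [Matrix.add_mulVec, Matrix.sub_mulVec, ← Matrix.mulVec_mulVec, Matrix.smul_mulVec,
    Matrix.one_mulVec, Matrix.zero_mulVec] at h1
  rw [E.mulVec_mem φ hw ℓ hℓS] at h1
  exact h1

theorem redMat_eq_of_agree {n : ℕ} {L : IntermediateField ℚ Qb}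
    (hL : ∀ σ : GQ, (∀ x ∈ L, σ x = x) → ∀ i j, (E.R σ - 1) i j ∈ I ^ n) {σ τ : GQ}
    (h : ∀ x ∈ L, σ x = τ x) : redMat I n (E.R σ) = redMat I n (E.R τ) := by
  have h2 : redMat I n (E.R (τ⁻¹ * σ)) = 1 := by
    rw [← map_one (redMat I n), redMat_eq_iff]
    apply hL
    intro x hx
    change τ⁻¹ (σ x) = x
    rw [h x hx]
    change (τ⁻¹ * τ) x = x
    rw [inv_mul_cancel]
    rfl
  have h3 : E.R σ = E.R τ * E.R (τ⁻¹ * σ) := by
    rw [← map_mul, mul_inv_cancel_left]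
  rw [h3, map_mul, h2, mul_one]

theorem approx [IsHausdorff I 𝒪] [Fact p.Prime] (hFD : FrobPowerDensity) {κ : GQ →* 𝒪ˣ}
    (hκ : IsKappa p I κ) (hpS : p ∈ S)
    (hNS : ∀ q : ℕ, q.Prime → q ∣ N → q ∈ S) (σ : GQ) (n : ℕ) :
    ∃ s : 𝒪, ∀ w ∈ E.eigenLattice S a, ∀ i,
      ((E.R σ).mulVec ((E.R σ).mulVec w) - s • (E.R σ).mulVec w + (κ σ : 𝒪) • w) i ∈ I ^ n := by
  obtain ⟨L₁, hL₁, h₁⟩ := E.level n
  obtain ⟨L₂, hL₂, hμ, -⟩ := hκ.level n
  obtain ⟨ℓ, A, φ, j, hℓ, hℓS, hA, hφ, hσ⟩ :=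
    hFD (L₁ ⊔ L₂) (IntermediateField.finiteDimensional_sup L₁ L₂) σ S
  have hℓN : ¬ ℓ ∣ N := fun h => hℓS (hNS ℓ hℓ h)
  have hℓp : ℓ ≠ p := fun h => hℓS (h ▸ hpS)
  -- the relation for `φ ^ j`
  have hrel : E.latRep S a φ * E.latRep S a φ - a ⟨ℓ, hℓ, hℓN⟩ • E.latRep S a φ
      + (ℓ : 𝒪) • (1 : Module.End 𝒪 (E.eigenLattice S a)) = 0 := by
    ext w
    exact congrFun (E.frob_rel ⟨ℓ, hℓ, hℓN⟩ hℓS hℓp hA hφ w.2) _
  obtain ⟨s, hs⟩ := Quad.pow (k := 𝒪) (R := Module.End 𝒪 (E.eigenLattice S a)) hrel j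
  rw [← map_pow] at hs
  refine ⟨s, fun w hw i => ?_⟩
  have hs' : (E.R (φ ^ j)).mulVec ((E.R (φ ^ j)).mulVec w) - s • (E.R (φ ^ j)).mulVec w
      + (ℓ : 𝒪) ^ j • w = 0 :=
    congrArg (fun f => ((f ⟨w, hw⟩ : E.eigenLattice S a) : Fin E.r → 𝒪)) hs
  -- comparison of `σ` and `φ ^ j`
  have hRσ : redMat I n (E.R σ) = redMat I n (E.R (φ ^ j)) :=
    E.redMat_eq_of_agree h₁ (fun x hx => hσ x ((le_sup_left : L₁ ≤ L₁ ⊔ L₂) hx))
  have hκσ : (κ σ : 𝒪) - (ℓ : 𝒪) ^ j ∈ I ^ n := by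
    have h4 := hκ.congr n (σ := σ) (τ := φ ^ j)
      (fun ζ hζ => hσ ζ ((le_sup_right : L₂ ≤ L₁ ⊔ L₂) (hμ ζ hζ)))
    rwa [map_pow, Units.val_pow_eq_pow_val, hκ.frobenius hℓ hℓp hA hφ] at h4
  -- the difference
  have hZ : ∀ i j', (E.R σ * E.R σ - E.R (φ ^ j) * E.R (φ ^ j)) i j' ∈ I ^ n := by
    rw [← redMat_eq_zero_iff, map_sub, map_mul, map_mul, hRσ, sub_self]
  have hZ' : ∀ i j', (E.R σ - E.R (φ ^ j)) i j' ∈ I ^ n := by
    rw [← redMat_eq_zero_iff, map_sub, hRσ, sub_self]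
  have key : (E.R σ).mulVec ((E.R σ).mulVec w) - s • (E.R σ).mulVec w + (κ σ : 𝒪) • w
      = (E.R σ * E.R σ - E.R (φ ^ j) * E.R (φ ^ j)).mulVec w - s • (E.R σ - E.R (φ ^ j)).mulVec w
        + ((κ σ : 𝒪) - (ℓ : 𝒪) ^ j) • w := by
    have : (E.R σ * E.R σ - E.R (φ ^ j) * E.R (φ ^ j)).mulVec w
        - s • (E.R σ - E.R (φ ^ j)).mulVec w + ((κ σ : 𝒪) - (ℓ : 𝒪) ^ j) • w
        = ((E.R σ).mulVec ((E.R σ).mulVec w) - s • (E.R σ).mulVec w + (κ σ : 𝒪) • w)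
          - ((E.R (φ ^ j)).mulVec ((E.R (φ ^ j)).mulVec w) - s • (E.R (φ ^ j)).mulVec w
            + (ℓ : 𝒪) ^ j • w) := by
      simp only [Matrix.sub_mulVec, ← Matrix.mulVec_mulVec, smul_sub, sub_smul]
      abel
    rw [this, hs', sub_zero]
  rw [key]
  simp only [Pi.add_apply, Pi.sub_apply, Pi.smul_apply, smul_eq_mul]
  exact Ideal.add_mem _ (Ideal.sub_mem _ (Quad.mulVec_mem _ hZ w i)
    (Ideal.mul_mem_left _ _ (Quad.mulVec_mem _ hZ' w i))) (Ideal.mul_mem_right _ _ hκσ)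

end AdicTower

end approx

end Fermat.Agent.ES.D
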