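/-
ES (D, p-adic part): the frozen statement S30 from (Frobenius density) + (existence of `AdicTower`).
-/
import Fermat.Agent.ES.D.Adic.Quad
import Fermat.Agent.ES.D.Adic.Core
import Fermat.Agent.ES.D.Adic.Conj
import Fermat.Prelude.Def_CuspForm_HeckeGaloisRepDatum

set_option autoImplicit false

namespace Fermat.Agent.ES.D

open Polynomial

section toK

variable {𝒪 : Type} [CommRing 𝒪] (K : Type) [Field K] [Algebra 𝒪 K] {r : ℕ}

/-- the coordinatewise map `𝒪^r → K^r`. -/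
noncomputable def toK : (Fin r → 𝒪) →ₗ[𝒪] (Fin r → K) :=
  (Algebra.linearMap 𝒪 K).compLeft (Fin r)

theorem toK_apply (w : Fin r → 𝒪) (i : Fin r) : toK K w i = algebraMap 𝒪 K (w i) := rfl

theorem toK_mulVec (X : Matrix (Fin r) (Fin r) 𝒪) (w : Fin r → 𝒪) :
    toK K (X.mulVec w) = ((algebraMap 𝒪 K).mapMatrix X).mulVec (toK K w) := by
  funext i
  exact RingHom.map_mulVec (algebraMap 𝒪 K) X w i

theorem actK_toK {G : Type} [Group G] (R : G →* Matrix (Fin r) (Fin r) 𝒪) (σ : G)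
    (w : Fin r → 𝒪) : actK K R σ (toK K w) = toK K ((R σ).mulVec w) := by
  rw [actK_apply, toK_mulVec]

theorem toK_smul (c : 𝒪) (w : Fin r → 𝒪) : toK K (c • w) = algebraMap 𝒪 K c • toK K w := by
  funext i
  simp [toK_apply]

theorem toK_injective [IsDomain 𝒪] [IsFractionRing 𝒪 K] :
    Function.Injective (toK K : (Fin r → 𝒪) → (Fin r → K)) := by
  intro w w' h
  funext i
  exact IsFractionRing.injective 𝒪 K (congrFun h i)

/-- the `K`-span of a lattice. -/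
noncomputable def spanK (W₀ : Submodule 𝒪 (Fin r → 𝒪)) : Submodule K (Fin r → K) :=
  Submodule.span K (toK K '' (W₀ : Set (Fin r → 𝒪)))

theorem spanK_le_ker {W₀ : Submodule 𝒪 (Fin r → 𝒪)} (F : Module.End K (Fin r → K))
    (h : ∀ w ∈ W₀, F (toK K w) = 0) : ∀ x ∈ spanK K W₀, F x = 0 := by
  have : spanK K W₀ ≤ LinearMap.ker F := by
    apply Submodule.span_le.mpr
    rintro _ ⟨w, hw, rfl⟩
    exact h w hw
  exact fun x hx => this hx

theorem spanK_stable {W₀ : Submodule 𝒪 (Fin r → 𝒪)} (F : Module.End K (Fin r → K))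
    (h : ∀ w ∈ W₀, F (toK K w) ∈ spanK K W₀) : ∀ x ∈ spanK K W₀, F x ∈ spanK K W₀ := by
  have : spanK K W₀ ≤ (spanK K W₀).comap F := by
    apply Submodule.span_le.mpr
    rintro _ ⟨w, hw, rfl⟩
    exact h w hw
  exact fun x hx => this hx

end toK

/-- the eigensystem attached to a character of the Hecke algebra. -/
noncomputable def eigenSystem {N : ℕ} [NeZero N] (S : Finset ℕ) {𝒪 : Type} [CommRing 𝒪]
    (χ : CuspForm.heckeAlgebra N 2 (↑S : Set ℕ) →+* 𝒪) (ℓ : GoodPrime N) : 𝒪 := by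
  classical
  exact if h : ℓ.1 ∉ (↑S : Set ℕ) then χ (CuspForm.heckeAlgebra.T ℓ.2.1 ℓ.2.2 h) else 0

theorem eigenSystem_eq {N : ℕ} [NeZero N] (S : Finset ℕ) {𝒪 : Type} [CommRing 𝒪]
    (χ : CuspForm.heckeAlgebra N 2 (↑S : Set ℕ) →+* 𝒪) (ℓ : GoodPrime N)
    (h : ℓ.1 ∉ (↑S : Set ℕ)) :
    eigenSystem S χ ℓ = χ (CuspForm.heckeAlgebra.T ℓ.2.1 ℓ.2.2 h) := by
  rw [eigenSystem, dif_pos h]

section main

variable {p : ℕ} [Fact p.Prime] {N : ℕ} [NeZero N] {S : Finset ℕ}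
  {𝒪 : Type} [CommRing 𝒪] [IsDomain 𝒪] [IsDiscreteValuationRing 𝒪]

omit [Fact p.Prime] in
theorem AdicTower.exists_mem_eigenLattice (E : AdicTower N p 𝒪 (IsLocalRing.maximalIdeal 𝒪))
    (χ : CuspForm.heckeAlgebra N 2 (↑S : Set ℕ) →+* 𝒪) :
    ∃ w ∈ E.eigenLattice S (eigenSystem S χ), w ≠ 0 := by
  obtain ⟨v, hv0, hv⟩ := E.eigen (FractionRing 𝒪) (↑S : Set ℕ)
    ((algebraMap 𝒪 (FractionRing 𝒪)).comp χ)
  obtain ⟨b, hb⟩ := IsLocalization.exist_integer_multiples_of_finite (nonZeroDivisors 𝒪) v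
  choose w hw using hb
  have hwv : toK (FractionRing 𝒪) w = algebraMap 𝒪 (FractionRing 𝒪) (b : 𝒪) • v := by
    funext i
    rw [toK_apply, hw i, Pi.smul_apply, Algebra.smul_def, smul_eq_mul]
  have hb0 : algebraMap 𝒪 (FractionRing 𝒪) (b : 𝒪) ≠ 0 := by
    intro h0
    exact nonZeroDivisors.coe_ne_zero b
      ((map_eq_zero_iff _ (IsFractionRing.injective 𝒪 (FractionRing 𝒪))).mp h0)
  refine ⟨w, ?_, ?_⟩
  · intro ℓ hℓ
    have hℓ' : ℓ.1 ∉ (↑S : Set ℕ) := by simpa using hℓ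
    apply toK_injective (FractionRing 𝒪)
    rw [toK_mulVec, toK_smul, hwv, Matrix.mulVec_smul]
    have := hv ℓ hℓ'
    rw [RingHom.mapMatrix_apply, this, eigenSystem_eq S χ ℓ hℓ', smul_comm]
    rfl
  · intro h0
    rw [h0] at hwv
    have h1 : algebraMap 𝒪 (FractionRing 𝒪) (b : 𝒪) • v = 0 := by
      rw [← hwv]; exact map_zero _
    exact hv0 ((smul_eq_zero.mp h1).resolve_left hb0)

/-- **The general form** (for S30 and S35). -/
theorem AdicTower.exists_galoisRepAdic [IsAdicComplete (IsLocalRing.maximalIdeal 𝒪) 𝒪] [CharZero 𝒪]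
    (hFD : FrobPowerDensity) (hp𝒪 : (p : 𝒪) ∈ IsLocalRing.maximalIdeal 𝒪)
    (hpS : p ∈ S) (hNS : ∀ q : ℕ, q.Prime → q ∣ N → q ∈ S)
    (E : AdicTower N p 𝒪 (IsLocalRing.maximalIdeal 𝒪))
    (χ : CuspForm.heckeAlgebra N 2 (↑S : Set ℕ) →+* 𝒪) :
    ∃ (κ : GQ →* 𝒪ˣ) (ρ : GaloisRepAdic 𝒪), IsKappa p (IsLocalRing.maximalIdeal 𝒪) κ ∧
      (∀ (σ : GQ) (t : 𝒪), (∀ w ∈ E.eigenLattice S (eigenSystem S χ),
          (E.R σ).mulVec ((E.R σ).mulVec w) - t • (E.R σ).mulVec w + (κ σ : 𝒪) • w = 0) →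
        LinearMap.charpoly (ρ.ρ σ) = X ^ 2 - C t * X + C (κ σ : 𝒪)) ∧
      (∀ σ : GQ, E.R σ = 1 → κ σ = 1 → ρ.ρ σ = 1) := by
  obtain ⟨κ, hκ⟩ := exists_isKappa p (IsLocalRing.maximalIdeal 𝒪) hp𝒪
  set K := FractionRing 𝒪 with hK
  set W₀ := E.eigenLattice S (eigenSystem S χ) with hW₀
  have h2 : (2 : K) ≠ 0 := by
    have : (2 : K) = algebraMap 𝒪 K 2 := by rw [map_ofNat]
    rw [this]
    intro h0
    exact two_ne_zero ((map_eq_zero_iff _ (IsFractionRing.injective 𝒪 K)).mp h0)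
  -- transfer of relations from the lattice to its span
  have htransfer : ∀ (σ : GQ) (t : K), (∀ w ∈ W₀, ∀ i,
      algebraMap 𝒪 K (((E.R σ).mulVec ((E.R σ).mulVec w) + (κ σ : 𝒪) • w) i)
        = t * algebraMap 𝒪 K (((E.R σ).mulVec w) i)) →
      ∀ x ∈ spanK K W₀, actK K E.R σ (actK K E.R σ x) - t • actK K E.R σ x
        + algebraMap 𝒪 K (κ σ : 𝒪) • x = 0 := by
    intro σ t h
    apply spanK_le_ker K (actK K E.R σ * actK K E.R σ - t • actK K E.R σ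
      + algebraMap 𝒪 K (κ σ : 𝒪) • (1 : Module.End K (Fin E.r → K)))
    intro w hw
    simp only [LinearMap.add_apply, LinearMap.sub_apply, Module.End.mul_apply,
      LinearMap.smul_apply, Module.End.one_apply]
    rw [actK_toK, actK_toK, ← toK_smul]
    funext i
    have := h w hw i
    simp only [Pi.add_apply, Pi.sub_apply, Pi.smul_apply, Pi.zero_apply, toK_apply, smul_eq_mul,
      map_add] at this ⊢
    rw [sub_add_eq_add_sub, this, sub_self]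
  obtain ⟨w₀, hw₀, hw₀0⟩ := E.exists_mem_eigenLattice χ
  have hW0 : spanK K W₀ ≠ ⊥ := by
    intro h0
    have h1 : toK K w₀ ∈ spanK K W₀ := Submodule.subset_span ⟨w₀, hw₀, rfl⟩
    rw [h0, Submodule.mem_bot] at h1
    exact hw₀0 (toK_injective K (h1.trans (map_zero _).symm))
  have hW : ∀ σ, ∀ x ∈ spanK K W₀, actK K E.R σ x ∈ spanK K W₀ := by
    intro σ
    apply spanK_stable
    intro w hw
    rw [actK_toK]
    exact Submodule.subset_span ⟨_, E.mulVec_mem σ hw, rfl⟩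
  have hinj : ∀ (σ : GQ) (w : Fin E.r → 𝒪), (E.R σ).mulVec w = 0 → w = 0 := by
    intro σ w h
    have h1 : (E.R σ⁻¹ * E.R σ).mulVec w = w := by
      rw [← map_mul, inv_mul_cancel, map_one, Matrix.one_mulVec]
    rw [← h1, ← Matrix.mulVec_mulVec, h, Matrix.mulVec_zero]
  have hquad : ∀ σ, ∃ t : K, ∀ x ∈ spanK K W₀,
      actK K E.R σ (actK K E.R σ x) - t • actK K E.R σ x + algebraMap 𝒪 K (κ σ : 𝒪) • x = 0 := by
    intro σ
    obtain ⟨t, ht⟩ := Quad.exists_of_approx (IsLocalRing.maximalIdeal 𝒪) K W₀ (E.R σ) (hinj σ)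
      (κ σ : 𝒪) (fun n => E.approx hFD hκ hpS hNS σ n)
    exact ⟨t, htransfer σ t ht⟩
  obtain ⟨V₀, _, _, _, _, ρ₀, hfr, hchar, htriv, hcont⟩ :=
    exists_adic_rep_core K h2 E.R κ (spanK K W₀) hW0 hW hquad complexConjugation
      complexConjugation_mul_self (hκ.conj complexConjugation_rootOfUnity)
  refine ⟨κ, { V := V₀, finrank_eq := hfr, ρ := ρ₀, isAdicContinuous := ?_ }, hκ, ?_, htriv⟩
  · intro n
    obtain ⟨L₁, hL₁, h₁⟩ := E.level n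
    obtain ⟨L₂, hL₂, -, h₂⟩ := hκ.level n
    refine ⟨L₁ ⊔ L₂, IntermediateField.finiteDimensional_sup L₁ L₂, fun σ hσ v => ?_⟩
    exact hcont σ n (h₁ σ fun x hx => hσ x ((le_sup_left : L₁ ≤ L₁ ⊔ L₂) hx))
      (h₂ σ fun x hx => hσ x ((le_sup_right : L₂ ≤ L₁ ⊔ L₂) hx)) v
  · intro σ t ht
    apply hchar σ t
    apply htransfer σ (algebraMap 𝒪 K t)
    intro w hw i
    have := congrFun (ht w hw) i
    rw [← map_mul]
    congr 1
    simp only [Pi.add_apply, Pi.sub_apply, Pi.smul_apply, Pi.zero_apply, smul_eq_mul] at this ⊢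
    linear_combination this

end main

/-- **S30** from Frobenius density and the existence of the adic towers. -/
theorem S30_of (hFD : FrobPowerDensity)
    (hT : ∀ (N : ℕ) [NeZero N] (p : ℕ), p.Prime → ∀ (𝒪 : Type) [CommRing 𝒪] (I : Ideal 𝒪)
      [IsAdicComplete I 𝒪], (p : 𝒪) ∈ I → Nonempty (AdicTower N p 𝒪 I)) :
    ∀ (p : ℕ) [Fact p.Prime] (N : ℕ) [NeZero N] (S : Finset ℕ)
      (_hpS : p ∈ S) (_hNS : ∀ q : ℕ, q.Prime → q ∣ N → q ∈ S)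
      (𝒪' : Type) [CommRing 𝒪'] [IsDomain 𝒪'] [IsDiscreteValuationRing 𝒪']
      [IsAdicComplete (IsLocalRing.maximalIdeal 𝒪') 𝒪'] [Finite (IsLocalRing.ResidueField 𝒪')]
      [CharZero 𝒪'] (_hp𝒪' : (p : 𝒪') ∈ IsLocalRing.maximalIdeal 𝒪')
      (χ : CuspForm.heckeAlgebra N 2 (↑S : Set ℕ) →+* 𝒪'),
      ∃ (𝒪'' : Type) (_ : CommRing 𝒪'') (_ : IsDomain 𝒪'') (_ : IsDiscreteValuationRing 𝒪'')
        (_ : IsAdicComplete (IsLocalRing.maximalIdeal 𝒪'') 𝒪'')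
        (_ : Finite (IsLocalRing.ResidueField 𝒪'')) (_ : CharZero 𝒪'')
        (_ : Algebra 𝒪' 𝒪'') (_ : Module.Finite 𝒪' 𝒪'') (_ : IsLocalHom (algebraMap 𝒪' 𝒪'')),
      Function.Injective (algebraMap 𝒪' 𝒪'') ∧
      ∃ ρ : GaloisRepAdic 𝒪'',
        (∀ (ℓ : ℕ) (hℓ : ℓ.Prime) (hℓN : ¬ ℓ ∣ N) (hℓS : ℓ ∉ (↑S : Set ℕ)),
          ∀ A : ValuationSubring (AlgebraicClosure ℚ), A.LiesOverPrime ℓ →
            ∀ σ : AlgebraicClosure ℚ ≃ₐ[ℚ] AlgebraicClosure ℚ, A.IsFrobeniusAt σ ℓ →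
              LinearMap.charpoly (ρ.ρ σ) =
                X ^ 2 - C (algebraMap 𝒪' 𝒪'' (χ (CuspForm.heckeAlgebra.T hℓ hℓN hℓS))) * X
                  + C ((ℓ : 𝒪''))) ∧
        (∀ q : ℕ, q.Prime → ¬ q ∣ N → q ≠ p → ρ.IsUnramifiedAt q) := by
  intro p _ N _ S hpS hNS 𝒪' _ _ _ _ _ _ hp𝒪' χ
  have hpp : p.Prime := Fact.out
  obtain ⟨E⟩ := hT N p hpp 𝒪' (IsLocalRing.maximalIdeal 𝒪') hp𝒪'
  obtain ⟨κ, ρ, hκ, hchar, htriv⟩ := E.exists_galoisRepAdic hFD hp𝒪' hpS hNS χ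
  refine ⟨𝒪', inferInstance, inferInstance, inferInstance, inferInstance, inferInstance,
    inferInstance, Algebra.id 𝒪', Module.Finite.self 𝒪', ⟨fun _ h => h⟩, fun _ _ h => h, ρ, ?_, ?_⟩
  · intro ℓ hℓ hℓN hℓS A hA σ hσ
    have hℓS' : ℓ ∉ S := by simpa using hℓS
    have hℓp : ℓ ≠ p := fun h => hℓS' (h ▸ hpS)
    have h1 := hchar σ (eigenSystem S χ ⟨ℓ, hℓ, hℓN⟩) (fun w hw => by
      rw [hκ.frobenius hℓ hℓp hA hσ]
      exact E.frob_rel ⟨ℓ, hℓ, hℓN⟩ hℓS' hℓp hA hσ hw)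
    rw [h1, hκ.frobenius hℓ hℓp hA hσ, eigenSystem_eq S χ ⟨ℓ, hℓ, hℓN⟩ hℓS]
    rfl
  · intro q hq hqN hqp A hA σ hσ
    apply htriv σ
    · apply E.unram q hq _ A hA σ hσ
      intro h
      rcases (Nat.Prime.dvd_mul hq).mp h with h | h
      · exact hqN h
      · exact hqp ((Nat.prime_dvd_prime_iff_eq hq hpp).mp h)
    · exact hκ.inertia hq hqp hA hσ

end Fermat.Agent.ES.D
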