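/-
ES (D, p-adic part) P6: the support lemma for finitely generated `ℤ`-modules: an eigensystem
`lam : ι → K` which factors through the commutative ring generated by commuting operators `T i` on a
finitely generated abelian group `V` occurs in `Hom(V, K)`.  (Support.lean has the case `V` finite.)

PROOF SKETCH.  `exists_eigenfunctional_fg` follows from `exists_eigenfunctional_of_faithful_fg`
exactly as `exists_eigenfunctional` follows from `exists_eigenfunctional_of_faithful` in Support.lean
(copy; `Module.Finite R V` for `R = (FreeAlgebra.lift ℤ T).range` from `Module.Finite ℤ V` via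
`Module.Finite.of_restrictScalars_finite ℤ R V`).
For `exists_eigenfunctional_of_faithful_fg`: `𝔭 := ker χ` is prime.  `V` is f.g. and faithful, so
`𝔭 ∈ Module.support R V` (`Module.support_eq_zeroLocus`, `Module.annihilator_eq_bot`), so
`𝔭.ResidueField ⊗[R] V` is nontrivial (`Module.mem_support_iff_nontrivial_residueField_tensorProduct`).
Take a nonzero `𝔭.ResidueField`-linear functional `φ` on it (`Module.forall_dual_apply_eq_zero_iff`),
nonzero on some pure tensor `1 ⊗ₜ x` (the pure tensors `1 ⊗ x` span over the residue field), and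
`j : 𝔭.ResidueField →+* K` with `j (algebraMap R _ a) = χ a` (`Ideal.ResidueField.lift`, or
`IsLocalization.lift` + `Ideal.Quotient.lift`).  `f x := j (φ (1 ⊗ₜ x))`.
Alternative without tensor products: localise by hand / Nakayama over `Localization.AtPrime 𝔭`.
-/
import Fermat.Agent.ES.D.Support

set_option autoImplicit false

namespace Fermat.Agent.ES.D

open TensorProduct in
theorem exists_eigenfunctional_of_faithful_fg {R V K : Type*} [CommRing R]
    [AddCommGroup V] [Module R V] [Module.Finite R V] [FaithfulSMul R V] [Field K]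
    (χ : R →+* K) : ∃ f : V →+ K, f ≠ 0 ∧ ∀ (r : R) (x : V), f (r • x) = χ r * f x := by
  classical
  have hprime : (RingHom.ker χ).IsPrime := RingHom.ker_isPrime χ
  let 𝔭 : PrimeSpectrum R := ⟨RingHom.ker χ, hprime⟩
  have hsupp : 𝔭 ∈ Module.support R V := by
    rw [Module.support_eq_zeroLocus, Module.annihilator_eq_bot.mpr inferInstance]
    simp
  have hnt : Nontrivial ((RingHom.ker χ).ResidueField ⊗[R] V) :=
    (Module.mem_support_iff_nontrivial_residueField_tensorProduct 𝔭).mp hsupp
  let j : (RingHom.ker χ).ResidueField →+* K :=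
    Ideal.ResidueField.lift (RingHom.ker χ) χ le_rfl (by
      intro r hr
      rw [Submonoid.mem_comap]
      exact IsUnit.mk0 _ hr)
  have hj : ∀ r, j (algebraMap R _ r) = χ r :=
    Ideal.ResidueField.lift_algebraMap (RingHom.ker χ) χ _ _
  -- a functional which is nonzero on a pure tensor `1 ⊗ x`
  obtain ⟨φ, x, hφ⟩ : ∃ (φ : Module.Dual (RingHom.ker χ).ResidueField
      ((RingHom.ker χ).ResidueField ⊗[R] V)) (x : V), φ (1 ⊗ₜ x) ≠ 0 := by
    by_contra hcon
    simp only [not_exists, not_not] at hcon
    have hall : ∀ (φ : Module.Dual (RingHom.ker χ).ResidueField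
        ((RingHom.ker χ).ResidueField ⊗[R] V)) (z : (RingHom.ker χ).ResidueField ⊗[R] V),
        φ z = 0 := by
      intro φ z
      induction z using TensorProduct.induction_on with
      | zero => simp
      | tmul a x =>
        have : a ⊗ₜ[R] x = a • ((1 : (RingHom.ker χ).ResidueField) ⊗ₜ[R] x) := by
          rw [TensorProduct.smul_tmul', smul_eq_mul, mul_one]
        rw [this, map_smul, hcon φ x, smul_zero]
      | add a b ha hb => rw [map_add, ha, hb, add_zero]
    obtain ⟨z, hz⟩ := exists_ne (0 : (RingHom.ker χ).ResidueField ⊗[R] V)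
    apply hz
    rw [← Module.forall_dual_apply_eq_zero_iff (RingHom.ker χ).ResidueField]
    exact fun φ => hall φ z
  let f : V →+ K :=
    { toFun := fun v => j (φ (1 ⊗ₜ v))
      map_zero' := by simp
      map_add' := fun a b => by rw [TensorProduct.tmul_add, map_add, map_add] }
  refine ⟨f, ?_, ?_⟩
  · intro h0
    have h1 : j (φ (1 ⊗ₜ x)) = 0 := DFunLike.congr_fun h0 x
    exact hφ ((map_eq_zero j).mp h1)
  · intro r v
    show j (φ (1 ⊗ₜ (r • v))) = χ r * j (φ (1 ⊗ₜ v))
    have h1 : (1 : (RingHom.ker χ).ResidueField) ⊗ₜ[R] (r • v) =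
        (algebraMap R (RingHom.ker χ).ResidueField r) •
          ((1 : (RingHom.ker χ).ResidueField) ⊗ₜ[R] v) := by
      rw [TensorProduct.tmul_smul, TensorProduct.smul_tmul', TensorProduct.smul_tmul',
        Algebra.smul_def, smul_eq_mul]
    rw [h1, map_smul, smul_eq_mul, map_mul, hj]

open scoped IsMulCommutative in
theorem exists_eigenfunctional_fg {V ι K : Type*} [AddCommGroup V] [Module.Finite ℤ V] [Field K]
    (T : ι → Module.End ℤ V) (hT : ∀ i j, Commute (T i) (T j)) (lam : ι → K)
    (h : ∀ P : FreeAlgebra ℤ ι, FreeAlgebra.lift ℤ T P = 0 → FreeAlgebra.lift ℤ lam P = 0) :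
    ∃ f : V →+ K, f ≠ 0 ∧ ∀ i x, f (T i x) = lam i * f x := by
  classical
  have hcomm : IsMulCommutative (FreeAlgebra.lift ℤ T).range := by
    rw [← Algebra.adjoin_range_eq_range_freeAlgebra_lift]
    apply Algebra.isMulCommutative_adjoin
    rintro _ ⟨i, rfl⟩ _ ⟨j, rfl⟩
    exact hT i j
  have hfin : Module.Finite (FreeAlgebra.lift ℤ T).range V :=
    Module.Finite.of_restrictScalars_finite ℤ (FreeAlgebra.lift ℤ T).range V
  have hfaith : FaithfulSMul (FreeAlgebra.lift ℤ T).range V := ⟨fun {a b} hab => by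
    apply Subtype.ext
    ext v
    exact hab v⟩
  let θ : FreeAlgebra ℤ ι →+* (FreeAlgebra.lift ℤ T).range :=
    (FreeAlgebra.lift ℤ T).rangeRestrict.toRingHom
  have hθ : Function.Surjective θ := (FreeAlgebra.lift ℤ T).rangeRestrict_surjective
  let χ : (FreeAlgebra.lift ℤ T).range →+* K :=
    RingHom.liftOfSurjective θ hθ ⟨(FreeAlgebra.lift ℤ lam).toRingHom, by
      intro P hP
      rw [RingHom.mem_ker] at hP ⊢
      exact h P (congrArg Subtype.val hP)⟩
  have hχ : ∀ P, χ (θ P) = FreeAlgebra.lift ℤ lam P := fun P =>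
    RingHom.liftOfRightInverse_comp_apply θ _ _ _ P
  obtain ⟨f, hf0, hf⟩ := exists_eigenfunctional_of_faithful_fg (V := V) χ
  refine ⟨f, hf0, fun i x => ?_⟩
  have h1 := hf (θ (FreeAlgebra.ι ℤ i)) x
  rw [hχ, FreeAlgebra.lift_ι_apply] at h1
  rw [← h1]
  congr 1
  change T i x = (FreeAlgebra.lift ℤ T (FreeAlgebra.ι ℤ i)) x
  rw [FreeAlgebra.lift_ι_apply]

end Fermat.Agent.ES.D
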