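/-
ES (D, p-adic part): the INTERFACE for S30 (and S35): the `p`-adic tower of Eichler-Shimura modules.
-/
import Fermat.Agent.ES.D.Defs

set_option autoImplicit false

namespace Fermat.Agent.ES.D

/-- **The `p`-adic Eichler-Shimura tower of level `N`** (think: `M n = Kum N (p ^ n) = J_0(N)[p ^ n]`,
`ℤ^r = Λ = Hom_par(Γ0(N), ℤ)` in coordinates, `q n = ι_{p ^ n} : Λ → Kum N (p ^ n)`, the class with
character `exp(2πi φ / p ^ n)`).

* no Galois action on `Λ` is required: only that the image of `q n` is Galois stable (trivial if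
  `q n` is surjective) and that the actions at levels `n + 1` and `n` are compatible (`q_ρ`; it follows
  from a Galois equivariant transition map `π : (M (n+1)).V → (M n).V` with `π ∘ q (n+1) = q n`;
  for `Kum` it is `Kum.mk f ↦ Kum.mk f`).
* `TΛ ℓ` is any additive endomorphism of `ℤ^r` (e.g. `c ↦ c ᵥ* heckeMat ℓ`). -/
structure ESTower (N : ℕ) [NeZero N] (p : ℕ) where
  /-- the finite levels -/
  M : ∀ n : ℕ, ESModule N (p ^ n)
  /-- the rank of the lattice -/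
  r : ℕ
  /-- the Hecke operators on the lattice -/
  TΛ : GoodPrime N → Module.End ℤ (Fin r → ℤ)
  /-- the uniformisations -/
  q : ∀ n : ℕ, (Fin r → ℤ) →+ (M n).V
  q_ker : ∀ (n : ℕ) (x : Fin r → ℤ), q n x = 0 → ∃ y : Fin r → ℤ, x = (p ^ n : ℤ) • y
  q_T : ∀ (n : ℕ) (ℓ : GoodPrime N) (x : Fin r → ℤ), q n (TΛ ℓ x) = (M n).T ℓ (q n x)
  q_stable : ∀ (n : ℕ) (σ : GQ) (x : Fin r → ℤ), ∃ y : Fin r → ℤ, (M n).ρ σ (q n x) = q n y
  q_ρ : ∀ (n : ℕ) (σ : GQ) (x y : Fin r → ℤ),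
    (M (n + 1)).ρ σ (q (n + 1) x) = q (n + 1) y → (M n).ρ σ (q n x) = q n y
  /-- the Hecke algebra of `S_2(Γ0(N))` is a quotient of the Hecke algebra of the lattice. -/
  suppΛ : ∀ P : FreeAlgebra ℤ (GoodPrime N), FreeAlgebra.lift ℤ TΛ P = 0 →
    FreeAlgebra.lift ℤ (heckeS2 N) P = 0

end Fermat.Agent.ES.D
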